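/-
(WC) = weak Chebotarev (lead Design Note #17 (3)): shared definitions.
* `wc_a M n`     : the number of integral ideals of norm `n` of the number field `M`
                   (the coefficients of Mathlib's `NumberField.dedekindZeta`);
* `wc_m s`       : `log (1 / (s - 1))`;
* `wc_Mass F c`  : `F s = c · log (1 / (s - 1)) + O(1)` as `s → 1⁺`;
* `wc_P f s`     : the prime Dirichlet series `∑_p f(p) p^{-s}`;
* `wc_IsFrob φ P ℓ`, `wc_Unram L ℓ`, `wc_N L ℓ c` : Frobenius congruence, trivial inertia over `ℓ`,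
                   number of primes over `ℓ` with Frobenius element `c`.
Owner: helper19 ((WC) architect).  Prefix `wc_`.
-/
import Mathlib

set_option autoImplicit false

open NumberField Filter Topology

namespace Fermat.Agent.WC

/-- The number of integral ideals of norm `n`. -/
noncomputable def wc_a (M : Type*) [Field M] [NumberField M] (n : ℕ) : ℕ :=
  Nat.card {I : Ideal (𝓞 M) // Ideal.absNorm I = n}

/-- `log (1 / (s - 1))`. -/
noncomputable def wc_m (s : ℝ) : ℝ := Real.log (1 / (s - 1))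

/-- `F s = c · log (1 / (s - 1)) + O(1)` as `s → 1⁺`. -/
def wc_Mass (F : ℝ → ℝ) (c : ℝ) : Prop :=
  ∃ C : ℝ, ∀ᶠ s in 𝓝[>] (1 : ℝ), |F s - c * wc_m s| ≤ C

/-- The prime Dirichlet series `∑_p f(p) p^{-s}`. -/
noncomputable def wc_P (f : ℕ → ℝ) (s : ℝ) : ℝ := ∑' p : Nat.Primes, f p * ((p : ℕ) : ℝ) ^ (-s)

section frob

variable (L : Type*) [Field L] [NumberField L]

variable {L} in
/-- `φ` satisfies the Frobenius congruence `φ x ≡ x ^ ℓ` modulo `P`. -/
def wc_IsFrob (φ : L ≃ₐ[ℚ] L) (P : Ideal (𝓞 L)) (ℓ : ℕ) : Prop :=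
  ∀ x : 𝓞 L, φ • x - x ^ ℓ ∈ P

/-- The primes of `L` over `ℓ` have trivial inertia groups. -/
def wc_Unram (ℓ : ℕ) : Prop :=
  ∀ P : Ideal (𝓞 L), P.IsPrime → (ℓ : 𝓞 L) ∈ P → ∀ g : L ≃ₐ[ℚ] L,
    (∀ x : 𝓞 L, g • x - x ∈ P) → g = 1

/-- The number of primes of `L` over `ℓ` with Frobenius element `c`. -/
noncomputable def wc_N (ℓ : ℕ) (c : L ≃ₐ[ℚ] L) : ℕ :=
  Nat.card {P : Ideal (𝓞 L) // P.IsPrime ∧ (ℓ : 𝓞 L) ∈ P ∧ wc_IsFrob c P ℓ}

end frob

end Fermat.Agent.WC
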