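/-
(WC) weak Chebotarev, leaf (A1): the ideal-counting function `wc_a M n = #{I : N(I) = n}` of a
number field is multiplicative on coprime arguments and polynomially bounded on prime powers
(prefix `wci_`).
-/
import Fermat.Agent.WC.Defs

set_option autoImplicit false
set_option linter.style.haveILetI false
set_option linter.unusedSectionVars false

open NumberField Ideal

namespace Fermat.Agent.WC

section general

variable {R : Type*} [CommRing R] [IsDedekindDomain R] [Module.Free ℤ R]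

/-- ideals of coprime norms are coprime -/
theorem wci_isCoprime {m n : ℕ} (h : Nat.Coprime m n) {A B : Ideal R} (hA : absNorm A = m)
    (hB : absNorm B = n) : IsCoprime A B := by
  rw [Ideal.isCoprime_iff_sup_eq, Ideal.eq_top_iff_one]
  obtain ⟨a, b, hab⟩ := (Nat.isCoprime_iff_coprime.2 h)
  have h1 : ((a : ℤ) : R) * ((m : ℕ) : R) + ((b : ℤ) : R) * ((n : ℕ) : R) = 1 := by
    have := congrArg (Int.cast : ℤ → R) hab
    push_cast at this
    exact this
  rw [← h1]
  refine Submodule.add_mem_sup (Ideal.mul_mem_left _ _ ?_) (Ideal.mul_mem_left _ _ ?_)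
  · rw [← hA]; exact Ideal.absNorm_mem A
  · rw [← hB]; exact Ideal.absNorm_mem B

/-- cancellation of coprime cofactors -/
theorem wci_eq_of_mul_eq {I J I' J' : Ideal R} (h : I * J = I' * J') (h1 : IsCoprime I J')
    (h2 : IsCoprime I' J) : I = I' := by
  have d1 : I ∣ I' := h1.dvd_of_dvd_mul_right (h ▸ Dvd.intro J rfl)
  have d2 : I' ∣ I := h2.dvd_of_dvd_mul_right (h.symm ▸ Dvd.intro J' rfl)
  exact le_antisymm (Ideal.le_of_dvd d2) (Ideal.le_of_dvd d1)

end general

variable (M : Type*) [Field M] [NumberField M]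

theorem wci_a_one : wc_a M 1 = 1 := by
  unfold wc_a
  rw [Nat.card_eq_one_iff_unique]
  refine ⟨⟨fun a b => Subtype.ext ?_⟩, ⟨⟨⊤, by simp⟩⟩⟩
  rw [Ideal.absNorm_eq_one_iff.1 a.2, Ideal.absNorm_eq_one_iff.1 b.2]

/-- norms of two ideals dividing coprime numbers and with the right product -/
theorem wci_norm_eq {m n a b : ℕ} (h : Nat.Coprime m n) (ha : a ∣ m) (hb : b ∣ n)
    (hab : a * b = m * n) : a = m ∧ b = n := by
  obtain ⟨c, rfl⟩ := ha
  obtain ⟨d, rfl⟩ := hb
  by_cases h0 : a * b = 0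
  · rcases Nat.mul_eq_zero.1 h0 with rfl | rfl
    · rw [zero_mul] at h
      have hb1 : b * d = 1 := (Nat.coprime_zero_left _).1 h
      have hb' : b = 1 := Nat.eq_one_of_mul_eq_one_right hb1
      have hd' : d = 1 := Nat.eq_one_of_mul_eq_one_left hb1
      subst hb' hd'
      simp
    · rw [zero_mul] at h
      have ha1 : a * c = 1 := (Nat.coprime_zero_right _).1 h
      have ha' : a = 1 := Nat.eq_one_of_mul_eq_one_right ha1
      have hc' : c = 1 := Nat.eq_one_of_mul_eq_one_left ha1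
      subst ha' hc'
      simp
  · have h1 : a * b * (c * d) = a * b * 1 := by
      calc a * b * (c * d) = a * c * (b * d) := by ring
        _ = a * b := hab.symm
        _ = a * b * 1 := (mul_one _).symm
    have h2 : c * d = 1 := Nat.eq_of_mul_eq_mul_left (Nat.pos_of_ne_zero h0) h1
    have hc' : c = 1 := Nat.eq_one_of_mul_eq_one_right h2
    have hd' : d = 1 := Nat.eq_one_of_mul_eq_one_left h2
    subst hc' hd'
    simp

/-- **`wc_a M` is multiplicative on coprime arguments.** -/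
theorem wci_a_mul {m n : ℕ} (h : Nat.Coprime m n) : wc_a M (m * n) = wc_a M m * wc_a M n := by
  unfold wc_a
  rw [← Nat.card_prod]
  symm
  have hfr : Module.finrank ℤ (𝓞 M) ≠ 0 := by
    rw [RingOfIntegers.rank]
    exact Module.finrank_pos.ne'
  refine Nat.card_congr (Equiv.ofBijective
    (fun IJ : {I : Ideal (𝓞 M) // absNorm I = m} × {I : Ideal (𝓞 M) // absNorm I = n} =>
      (⟨IJ.1.1 * IJ.2.1, by rw [map_mul, IJ.1.2, IJ.2.2]⟩ :
        {I : Ideal (𝓞 M) // absNorm I = m * n})) ⟨?_, ?_⟩)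
  · rintro ⟨⟨I, hI⟩, ⟨J, hJ⟩⟩ ⟨⟨I', hI'⟩, ⟨J', hJ'⟩⟩ heq
    have heq' : I * J = I' * J' := congrArg Subtype.val heq
    have e1 : I = I' :=
      wci_eq_of_mul_eq heq' (wci_isCoprime h hI hJ') (wci_isCoprime h hI' hJ)
    have e2 : J = J' := by
      rw [mul_comm I J, mul_comm I' J'] at heq'
      exact wci_eq_of_mul_eq heq' (wci_isCoprime h.symm hJ hI') (wci_isCoprime h.symm hJ' hI)
    subst e1 e2
    rfl
  · rintro ⟨K, hK⟩
    set I : Ideal (𝓞 M) := K ⊔ span {((m : ℕ) : 𝓞 M)} with hIdef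
    set J : Ideal (𝓞 M) := K ⊔ span {((n : ℕ) : 𝓞 M)} with hJdef
    have hcop : IsCoprime I J := by
      rw [Ideal.isCoprime_iff_sup_eq, Ideal.eq_top_iff_one]
      obtain ⟨a, b, hab⟩ := (Nat.isCoprime_iff_coprime.2 h)
      have h1 : ((a : ℤ) : 𝓞 M) * ((m : ℕ) : 𝓞 M) + ((b : ℤ) : 𝓞 M) * ((n : ℕ) : 𝓞 M) = 1 := by
        have := congrArg (Int.cast : ℤ → 𝓞 M) hab
        push_cast at this
        exact this
      rw [← h1]
      refine Submodule.add_mem_sup (Ideal.mul_mem_left _ _ ?_) (Ideal.mul_mem_left _ _ ?_)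
      · exact Ideal.mem_sup_right (Ideal.subset_span rfl)
      · exact Ideal.mem_sup_right (Ideal.subset_span rfl)
    have hmn : span {((m : ℕ) : 𝓞 M)} * span {((n : ℕ) : 𝓞 M)} ≤ K := by
      rw [Ideal.span_singleton_mul_span_singleton, Ideal.span_singleton_le_iff_mem]
      have := Ideal.absNorm_mem K
      rw [hK] at this
      push_cast at this
      exact this
    have hIJ : I * J = K := by
      apply le_antisymm
      · rw [hIdef, hJdef, Ideal.sup_mul, Ideal.mul_sup, Ideal.mul_sup]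
        refine sup_le (sup_le Ideal.mul_le_left Ideal.mul_le_left) (sup_le Ideal.mul_le_right hmn)
      · rw [Ideal.mul_eq_inf_of_isCoprime hcop]
        exact le_inf le_sup_left le_sup_left
    have hNI : absNorm I ∣ m ^ Module.finrank ℤ (𝓞 M) := by
      rw [← Ideal.absNorm_span_natCast (S := 𝓞 M) m]
      exact Ideal.absNorm_dvd_absNorm_of_le le_sup_right
    have hNJ : absNorm J ∣ n ^ Module.finrank ℤ (𝓞 M) := by
      rw [← Ideal.absNorm_span_natCast (S := 𝓞 M) n]
      exact Ideal.absNorm_dvd_absNorm_of_le le_sup_right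
    have hprod : absNorm I * absNorm J = m * n := by rw [← map_mul, hIJ, hK]
    have hI1 : absNorm I ∣ m := by
      have hc : Nat.Coprime (absNorm I) n :=
        Nat.Coprime.coprime_dvd_left hNI (Nat.Coprime.pow_left _ h)
      exact hc.dvd_of_dvd_mul_right (hprod ▸ Dvd.intro _ rfl)
    have hJ1 : absNorm J ∣ n := by
      have hc : Nat.Coprime (absNorm J) m :=
        Nat.Coprime.coprime_dvd_left hNJ (Nat.Coprime.pow_left _ h.symm)
      exact hc.dvd_of_dvd_mul_left (hprod ▸ Dvd.intro_left _ rfl)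
    obtain ⟨e1, e2⟩ := wci_norm_eq h hI1 hJ1 hprod
    exact ⟨(⟨I, e1⟩, ⟨J, e2⟩), Subtype.ext hIJ⟩

section primePow

open UniqueFactorizationMonoid

variable {M}

/-- a prime factor of an ideal of norm `p ^ e` has norm `p ^ k` with `1 ≤ k`, and contains `p` -/
theorem wci_factor_spec {p : ℕ} (hp : p.Prime) {e : ℕ} {I : Ideal (𝓞 M)}
    (hI : absNorm I = p ^ e) {Q : Ideal (𝓞 M)} (hQ : Q ∈ normalizedFactors I) :
    Q.IsPrime ∧ ((p : ℕ) : 𝓞 M) ∈ Q ∧ p ≤ absNorm Q := by
  have hQprime : Prime Q := prime_of_normalized_factor Q hQ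
  have hQP : Q.IsPrime := Ideal.isPrime_of_prime hQprime
  have hdvd : Q ∣ I := dvd_of_mem_normalizedFactors hQ
  have hN : absNorm Q ∣ p ^ e := hI ▸ map_dvd absNorm hdvd
  obtain ⟨k, -, hk⟩ := (Nat.dvd_prime_pow hp).1 hN
  have hk0 : k ≠ 0 := by
    rintro rfl
    rw [pow_zero, Ideal.absNorm_eq_one_iff] at hk
    exact hQP.ne_top hk
  refine ⟨hQP, ?_, ?_⟩
  · have h1 : ((absNorm Q : ℕ) : 𝓞 M) ∈ Q := Ideal.absNorm_mem Q
    rw [hk] at h1
    push_cast at h1
    exact hQP.mem_of_pow_mem k h1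
  · rw [hk]
    exact Nat.le_self_pow hk0 p

theorem wci_card_factors_le {p : ℕ} (hp : p.Prime) {e : ℕ} {I : Ideal (𝓞 M)}
    (hI : absNorm I = p ^ e) : Multiset.card (normalizedFactors I) ≤ e := by
  have hI0 : I ≠ ⊥ := by
    rintro rfl
    rw [Ideal.absNorm_bot] at hI
    exact (pow_ne_zero e hp.ne_zero) hI.symm
  have h1 : p ^ Multiset.card ((normalizedFactors I).map absNorm) ≤
      ((normalizedFactors I).map absNorm).prod := by
    apply Multiset.pow_card_le_prod
    intro x hx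
    obtain ⟨Q, hQ, rfl⟩ := Multiset.mem_map.1 hx
    exact (wci_factor_spec hp hI hQ).2.2
  rw [Multiset.card_map, ← map_multiset_prod, Ideal.prod_normalizedFactors_eq_self hI0, hI] at h1
  exact (Nat.pow_le_pow_iff_right hp.one_lt).1 h1

variable (M)

/-- the number of primes of `𝓞 M` over `p` is at most `[M : ℚ]` -/
theorem wci_card_primesOver_le {p : ℕ} (hp : p.Prime) :
    haveI : Fact p.Prime := ⟨hp⟩
    Fintype.card ((span {(p : ℤ)}).primesOver (𝓞 M)) ≤ Module.finrank ℚ M := by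
  haveI : Fact p.Prime := ⟨hp⟩
  rw [← RingOfIntegers.rank M,
    ← Ideal.sum_ramification_inertia_eq_finrank (span {(p : ℤ)}) (𝓞 M), Fintype.card_eq_sum_ones]
  refine Finset.sum_le_sum fun Q _ => ?_
  exact Nat.one_le_iff_ne_zero.2 (Nat.mul_ne_zero (Ideal.ramificationIdx_pos (R := ℤ) Q.1).ne'
    (Ideal.inertiaDeg_pos (R := ℤ) Q.1).ne')

/-- **`wc_a M (p ^ e) ≤ (e + 1) ^ [M : ℚ]`.** -/
theorem wci_a_prime_pow_le {p : ℕ} (hp : p.Prime) (e : ℕ) :
    wc_a M (p ^ e) ≤ (e + 1) ^ Module.finrank ℚ M := by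
  classical
  haveI : Fact p.Prime := ⟨hp⟩
  set PP := (span {(p : ℤ)}).primesOver (𝓞 M) with hPPdef
  -- membership in `PP`
  have hmem : ∀ {I : Ideal (𝓞 M)}, absNorm I = p ^ e → ∀ Q ∈ normalizedFactors I, Q ∈ PP := by
    intro I hI Q hQ
    obtain ⟨hQP, hpQ, -⟩ := wci_factor_spec hp hI hQ
    refine ⟨hQP, ⟨?_⟩⟩
    refine Ideal.IsMaximal.eq_of_le (Int.ideal_span_isMaximal_of_prime p)
      (Ideal.IsPrime.under ℤ Q).ne_top ?_
    rw [Ideal.span_singleton_le_iff_mem, Ideal.under_def, Ideal.mem_comap]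
    simpa using hpQ
  let f : {I : Ideal (𝓞 M) // absNorm I = p ^ e} → (PP → Fin (e + 1)) := fun I Q =>
    ⟨(normalizedFactors I.1).count Q.1,
      Nat.lt_succ_of_le ((Multiset.count_le_card _ _).trans (wci_card_factors_le hp I.2))⟩
  have hf : Function.Injective f := by
    rintro ⟨I, hI⟩ ⟨I', hI'⟩ h
    have hI0 : I ≠ ⊥ := by
      rintro rfl
      rw [Ideal.absNorm_bot] at hI
      exact (pow_ne_zero e hp.ne_zero) hI.symm
    have hI0' : I' ≠ ⊥ := by
      rintro rfl
      rw [Ideal.absNorm_bot] at hI'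
      exact (pow_ne_zero e hp.ne_zero) hI'.symm
    have hF : normalizedFactors I = normalizedFactors I' := by
      ext Q
      by_cases hQ : Q ∈ PP
      · have := congrArg (fun g => (g ⟨Q, hQ⟩ : ℕ)) h
        exact this
      · rw [Multiset.count_eq_zero_of_notMem (fun hh => hQ (hmem hI Q hh)),
          Multiset.count_eq_zero_of_notMem (fun hh => hQ (hmem hI' Q hh))]
    apply Subtype.ext
    change I = I'
    rw [← Ideal.prod_normalizedFactors_eq_self hI0, hF, Ideal.prod_normalizedFactors_eq_self hI0']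
  unfold wc_a
  calc Nat.card {I : Ideal (𝓞 M) // absNorm I = p ^ e}
      ≤ Nat.card (PP → Fin (e + 1)) := Nat.card_le_card_of_injective f hf
    _ = (e + 1) ^ Fintype.card PP := by
        rw [Nat.card_fun, Nat.card_eq_fintype_card, Nat.card_eq_fintype_card, Fintype.card_fin]
    _ ≤ (e + 1) ^ Module.finrank ℚ M :=
        Nat.pow_le_pow_right (Nat.succ_pos e) (wci_card_primesOver_le M hp)

end primePow

end Fermat.Agent.WC
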