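/-
(WC) weak Chebotarev, leaf (B), basic part (second seat): finitely many rational primes have a
non-trivial inertia group in a number field `L` (`wcb_finite_ram`), and the number of primes over
`ℓ` with a given Frobenius element is at most `[L : ℚ]` (`wcb_N_le`).
Helper lemmas carry the prefix `wcb_b_`.
-/
import Fermat.Agent.WC.Defs
import Fermat.Agent.WC.IdealCount

set_option autoImplicit false
set_option linter.unusedSectionVars false
set_option linter.style.haveILetI false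

open NumberField Ideal

namespace Fermat.Agent.WC

variable (L : Type*) [Field L] [NumberField L]

variable {L}

/-- a prime ideal of `𝓞 L` containing the rational prime `ℓ` lies over `(ℓ)` -/
theorem wcb_b_mem_primesOver {ℓ : ℕ} (hℓ : ℓ.Prime) {P : Ideal (𝓞 L)} (hP : P.IsPrime)
    (hℓP : ((ℓ : ℕ) : 𝓞 L) ∈ P) : P ∈ (span {(ℓ : ℤ)}).primesOver (𝓞 L) := by
  haveI : Fact ℓ.Prime := ⟨hℓ⟩
  refine ⟨hP, ⟨?_⟩⟩
  refine Ideal.IsMaximal.eq_of_le (Int.ideal_span_isMaximal_of_prime ℓ)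
    (Ideal.IsPrime.under ℤ P).ne_top ?_
  rw [Ideal.span_singleton_le_iff_mem, Ideal.under_def, Ideal.mem_comap]
  simpa using hℓP

/-- the rational prime below a prime ideal divides its norm -/
theorem wcb_b_dvd_absNorm {ℓ : ℕ} (hℓ : ℓ.Prime) {P : Ideal (𝓞 L)} (hP : P.IsPrime)
    (hℓP : ((ℓ : ℕ) : 𝓞 L) ∈ P) : ℓ ∣ absNorm P := by
  have h1 : absNorm P ∣ ℓ ^ Module.finrank ℤ (𝓞 L) := by
    rw [← Ideal.absNorm_span_natCast (S := 𝓞 L) ℓ]
    exact Ideal.absNorm_dvd_absNorm_of_le ((Ideal.span_singleton_le_iff_mem _).2 hℓP)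
  obtain ⟨k, -, hk⟩ := (Nat.dvd_prime_pow hℓ).1 h1
  have hk0 : k ≠ 0 := by
    rintro rfl
    rw [pow_zero, Ideal.absNorm_eq_one_iff] at hk
    exact hP.ne_top hk
  rw [hk]
  exact dvd_pow_self ℓ hk0

/-- a non-trivial automorphism moves an integer of `L` -/
theorem wcb_b_exists_moved {g : L ≃ₐ[ℚ] L} (hg : g ≠ 1) : ∃ x : 𝓞 L, g • x - x ≠ 0 := by
  by_contra hcon
  push Not at hcon
  apply hg
  ext y
  obtain ⟨a, b, -, rfl⟩ := IsFractionRing.div_surjective (A := 𝓞 L) y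
  have ha : g (algebraMap (𝓞 L) L a) = algebraMap (𝓞 L) L a :=
    congrArg (algebraMap (𝓞 L) L) (sub_eq_zero.1 (hcon a))
  have hb : g (algebraMap (𝓞 L) L b) = algebraMap (𝓞 L) L b :=
    congrArg (algebraMap (𝓞 L) L) (sub_eq_zero.1 (hcon b))
  rw [AlgEquiv.one_apply, map_div₀, ha, hb]

variable (L)

/-- **Only finitely many rational primes have a non-trivial inertia group in `L`.** -/
theorem wcb_finite_ram : {ℓ : ℕ | ℓ.Prime ∧ ¬ wc_Unram L ℓ}.Finite := by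
  classical
  choose! x hx using fun (g : L ≃ₐ[ℚ] L) (hg : g ≠ 1) => wcb_b_exists_moved hg
  set D : ℤ := ∏ g ∈ (Finset.univ : Finset (L ≃ₐ[ℚ] L)).filter (fun g => g ≠ 1),
    Algebra.norm ℤ (g • x g - x g) with hD
  have hD0 : D ≠ 0 := by
    rw [hD, Finset.prod_ne_zero_iff]
    intro g hg
    rw [Finset.mem_filter] at hg
    rw [Ne, Algebra.norm_eq_zero_iff]
    exact hx g hg.2
  refine Set.Finite.subset (Nat.divisors D.natAbs).finite_toSet ?_
  rintro ℓ ⟨hℓ, hram⟩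
  rw [Finset.mem_coe, Nat.mem_divisors]
  refine ⟨?_, Int.natAbs_ne_zero.2 hD0⟩
  unfold wc_Unram at hram
  push Not at hram
  obtain ⟨P, hP, hℓP, g, hgP, hg1⟩ := hram
  have h1 : ((absNorm P : ℕ) : ℤ) ∣ Algebra.norm ℤ (g • x g - x g) :=
    Ideal.absNorm_dvd_norm_of_mem (hgP (x g))
  have h2 : (ℓ : ℤ) ∣ D := by
    refine dvd_trans ?_ (Finset.dvd_prod_of_mem _ (Finset.mem_filter.2 ⟨Finset.mem_univ g, hg1⟩))
    exact dvd_trans (Int.natCast_dvd_natCast.2 (wcb_b_dvd_absNorm hℓ hP hℓP)) h1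
  exact Int.natCast_dvd.1 h2

/-- **At most `[L : ℚ]` primes over `ℓ` (with a given Frobenius element).** -/
theorem wcb_N_le {ℓ : ℕ} (hℓ : ℓ.Prime) (c : L ≃ₐ[ℚ] L) :
    wc_N L ℓ c ≤ Module.finrank ℚ L := by
  haveI : Fact ℓ.Prime := ⟨hℓ⟩
  unfold wc_N
  let f : {P : Ideal (𝓞 L) // P.IsPrime ∧ ((ℓ : ℕ) : 𝓞 L) ∈ P ∧ wc_IsFrob c P ℓ} →
      (span {(ℓ : ℤ)}).primesOver (𝓞 L) :=
    fun P => ⟨P.1, wcb_b_mem_primesOver hℓ P.2.1 P.2.2.1⟩
  have hf : Function.Injective f := by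
    intro P Q h
    have h' : (f P).1 = (f Q).1 := by rw [h]
    exact Subtype.ext h'
  calc Nat.card {P : Ideal (𝓞 L) // P.IsPrime ∧ ((ℓ : ℕ) : 𝓞 L) ∈ P ∧ wc_IsFrob c P ℓ}
      ≤ Nat.card ((span {(ℓ : ℤ)}).primesOver (𝓞 L)) := Nat.card_le_card_of_injective f hf
    _ = Fintype.card ((span {(ℓ : ℤ)}).primesOver (𝓞 L)) := Nat.card_eq_fintype_card
    _ ≤ Module.finrank ℚ L := wci_card_primesOver_le L hℓ

end Fermat.Agent.WC
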