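/-
(WC) leaf (B): Frobenius elements, decomposition groups and the counting identity
`∑_{c ∈ H} ord(c) · N_ℓ(c) = |H| · a_{L^H}(ℓ)` at an unramified prime `ℓ`.

* `wcb_exists_frob`, `wcb_frob_unique`, `wcb_frob` (the Frobenius element of a prime `P ∣ ℓ`),
  `wcb_isFrob_iff`;
* `wcb_stabilizer_eq_zpowers` : the decomposition group is generated by the Frobenius;
* `wcb_norm_under_eq_iff` : `P ∩ L^H` has norm `ℓ` iff the Frobenius of `P` lies in `H`;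
* `wcb_count` : the counting identity.

Owner: helper13.  Prefix `wcb_` (helpers `wcb_c_`).
-/
import Mathlib
import Fermat.Agent.WC.Defs

set_option autoImplicit false
set_option linter.style.haveILetI false
set_option linter.unusedSectionVars false

open NumberField
open scoped Pointwise

namespace Fermat.Agent.WC

/-! ### Frobenius generates the decomposition group (generic) -/

section generic
variable {A B G : Type*} [CommRing A] [CommRing B] [Algebra A B] [Group G]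
  [MulSemiringAction G B] [SMulCommClass G A B]

attribute [local instance] Ideal.Quotient.field in
omit [SMulCommClass G A B] in
theorem wcb_c_frob_aux (P : Ideal A) (Q : Ideal B) [Q.IsPrime] [Q.LiesOver P] [SMulCommClass G A B]
    [Finite (B ⧸ Q)] [Q.IsMaximal] [P.IsMaximal] [Fintype (A ⧸ P)] (φ : G)
    (hφst : φ ∈ MulAction.stabilizer G Q)
    (hφspec : ∀ x : B, φ • x - x ^ Nat.card (A ⧸ P) ∈ Q)
    (hfinj : Function.Injective (Ideal.Quotient.stabilizerHom Q P G))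
    (g : G) (hg : g ∈ MulAction.stabilizer G Q) : g ∈ Subgroup.zpowers φ := by
  have hfφ : Ideal.Quotient.stabilizerHom Q P G ⟨φ, hφst⟩ =
      FiniteField.frobeniusAlgEquivOfAlgebraic (A ⧸ P) (B ⧸ Q) := by
    apply AlgEquiv.ext
    intro x
    obtain ⟨x, rfl⟩ := Ideal.Quotient.mk_surjective x
    rw [Ideal.Quotient.stabilizerHom_apply, FiniteField.coe_frobeniusAlgEquivOfAlgebraic]
    show Ideal.Quotient.mk Q (φ • x) = (Ideal.Quotient.mk Q x) ^ Fintype.card (A ⧸ P)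
    rw [← map_pow, Ideal.Quotient.eq, ← Nat.card_eq_fintype_card]
    exact hφspec x
  obtain ⟨n, hn⟩ := (FiniteField.bijective_frobeniusAlgEquivOfAlgebraic_pow (A ⧸ P) (B ⧸ Q)).2
    (Ideal.Quotient.stabilizerHom Q P G ⟨g, hg⟩)
  have h2 : Ideal.Quotient.stabilizerHom Q P G (⟨φ, hφst⟩ ^ (n : ℕ)) =
      Ideal.Quotient.stabilizerHom Q P G ⟨g, hg⟩ := by
    rw [map_pow, hfφ]
    exact hn
  have h3 := hfinj h2
  rw [Subgroup.mem_zpowers_iff]
  refine ⟨(n : ℕ), ?_⟩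
  have h4 := congrArg Subtype.val h3
  rw [zpow_natCast]
  simpa using h4

variable [Finite G] [Algebra.IsInvariant A B G]

/-- **Frobenius generates the decomposition group at a prime with trivial inertia.** -/
theorem wcb_c_exists_frob_gen (P : Ideal A) (Q : Ideal B) [Q.IsPrime] [Q.LiesOver P]
    [Finite (B ⧸ Q)] [P.IsMaximal] [Finite (A ⧸ P)]
    (hin : ∀ g : G, g • Q = Q → (∀ x : B, g • x - x ∈ Q) → g = 1) :
    ∃ φ : G, φ • Q = Q ∧ (∀ x : B, φ • x - x ^ Nat.card (A ⧸ P) ∈ Q) ∧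
      ∀ g : G, g • Q = Q → g ∈ Subgroup.zpowers φ := by
  classical
  have hP : P = Q.under A := Ideal.LiesOver.over
  obtain ⟨φ, hφ⟩ := IsArithFrobAt.exists_of_isInvariant A G Q
  have hφst : φ ∈ MulAction.stabilizer G Q := hφ.mem_stabilizer
  have hφspec : ∀ x : B, φ • x - x ^ Nat.card (A ⧸ P) ∈ Q := by
    intro x
    have := hφ x
    rw [hP]
    exact this
  refine ⟨φ, hφst, hφspec, ?_⟩
  have hQmax : Q.IsMaximal :=
    Ideal.Quotient.maximal_of_isField _ (Finite.isField_of_domain (B ⧸ Q))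
  let _ := Fintype.ofFinite (A ⧸ P)
  have hfinj : Function.Injective (Ideal.Quotient.stabilizerHom Q P G) := by
    rw [injective_iff_map_eq_one]
    intro g hg
    have hg' : g ∈ (Ideal.Quotient.stabilizerHom Q P G).ker := hg
    rw [Ideal.Quotient.ker_stabilizerHom] at hg'
    have h1 : (g : G) = 1 := hin g g.2 (fun x => by
      have := AddSubgroup.mem_inertia.mp hg' x
      exact this)
    exact Subtype.ext h1
  intro g hg
  exact wcb_c_frob_aux P Q φ hφst hφspec hfinj g hg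

/-- A version where the Frobenius element is given. -/
theorem wcb_c_stabilizer_le_zpowers (P : Ideal A) (Q : Ideal B) [Q.IsPrime] [Q.LiesOver P]
    [Finite (B ⧸ Q)] [P.IsMaximal] [Finite (A ⧸ P)]
    (hin : ∀ g : G, g • Q = Q → (∀ x : B, g • x - x ∈ Q) → g = 1)
    (φ : G) (hφ : ∀ x : B, φ • x - x ^ Nat.card (A ⧸ P) ∈ Q) :
    MulAction.stabilizer G Q = Subgroup.zpowers φ := by
  obtain ⟨ψ, hψst, hψ, hgen⟩ := wcb_c_exists_frob_gen (G := G) P Q hin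
  have hP : P = Q.under A := Ideal.LiesOver.over
  have h1 : IsArithFrobAt A φ Q := by
    intro x
    have := hφ x
    rw [hP] at this
    exact this
  have h2 : IsArithFrobAt A ψ Q := by
    intro x
    have := hψ x
    rw [hP] at this
    exact this
  have hφst : φ ∈ MulAction.stabilizer G Q := h1.mem_stabilizer
  have h3 : φ * ψ⁻¹ = 1 := by
    apply hin
    · have : φ * ψ⁻¹ ∈ MulAction.stabilizer G Q :=
        mul_mem hφst (inv_mem hψst)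
      exact this
    · intro x
      exact AddSubgroup.mem_inertia.mp (h1.mul_inv_mem_inertia h2) x
  have h4 : φ = ψ := by
    rw [mul_inv_eq_one] at h3
    exact h3
  subst h4
  apply le_antisymm
  · intro g hg
    exact hgen g hg
  · rw [Subgroup.zpowers_le]
    exact hφst

end generic

/-! ### Primes over a rational prime -/

section nf
variable {L : Type*} [Field L] [NumberField L]

theorem wcb_c_under {ℓ : ℕ} (hℓ : ℓ.Prime) (P : Ideal (𝓞 L)) (hP : P.IsPrime)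
    (h : (ℓ : 𝓞 L) ∈ P) : P.under ℤ = Ideal.span {(ℓ : ℤ)} := by
  haveI : Fact ℓ.Prime := ⟨hℓ⟩
  have hmax : (Ideal.span {(ℓ : ℤ)}).IsMaximal := Int.ideal_span_isMaximal_of_prime ℓ
  symm
  apply hmax.eq_of_le
  · exact (Ideal.IsPrime.under ℤ P).ne_top
  · rw [Ideal.span_singleton_le_iff_mem, Ideal.under_def, Ideal.mem_comap]
    simpa using h

theorem wcb_c_ne_bot {ℓ : ℕ} (hℓ : ℓ.Prime) (P : Ideal (𝓞 L)) (h : (ℓ : 𝓞 L) ∈ P) : P ≠ ⊥ := by
  rintro rfl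
  have h0 : (ℓ : 𝓞 L) = 0 := by simpa using h
  exact hℓ.ne_zero (by exact_mod_cast h0)

theorem wcb_c_finite_quot {ℓ : ℕ} (hℓ : ℓ.Prime) (P : Ideal (𝓞 L)) (h : (ℓ : 𝓞 L) ∈ P) :
    Finite (𝓞 L ⧸ P) :=
  Ideal.finiteQuotientOfFreeOfNeBot P (wcb_c_ne_bot hℓ P h)

/-- The set of primes of `L` over `ℓ` is finite. -/
theorem wcb_primes_finite {ℓ : ℕ} (hℓ : ℓ.Prime) :
    {P : Ideal (𝓞 L) | P.IsPrime ∧ (ℓ : 𝓞 L) ∈ P}.Finite := by
  have hne : Ideal.span {(ℓ : 𝓞 L)} ≠ ⊥ := by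
    rw [Ne, Ideal.span_singleton_eq_bot]
    exact_mod_cast hℓ.ne_zero
  have hN : Ideal.absNorm (Ideal.span {(ℓ : 𝓞 L)}) ≠ 0 := by
    rw [Ne, Ideal.absNorm_eq_zero_iff]
    exact hne
  refine (Ideal.finite_setOfPred_absNorm_le (S := 𝓞 L)
    (Ideal.absNorm (Ideal.span {(ℓ : 𝓞 L)}))).subset ?_
  rintro P ⟨-, hP⟩
  have hle : Ideal.span {(ℓ : 𝓞 L)} ≤ P := by
    rw [Ideal.span_singleton_le_iff_mem]
    exact hP
  exact Nat.le_of_dvd (Nat.pos_of_ne_zero hN) (Ideal.absNorm_dvd_absNorm_of_le hle)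

variable [IsGalois ℚ L]

/-- `wc_IsFrob` is Mathlib's `IsArithFrobAt ℤ` at a prime over `ℓ`. -/
theorem wcb_isFrob_iff_arith {ℓ : ℕ} (hℓ : ℓ.Prime) (P : Ideal (𝓞 L)) (hP : P.IsPrime)
    (h : (ℓ : 𝓞 L) ∈ P) (φ : L ≃ₐ[ℚ] L) : wc_IsFrob φ P ℓ ↔ IsArithFrobAt ℤ φ P := by
  have hc : Nat.card (ℤ ⧸ P.under ℤ) = ℓ := by
    rw [wcb_c_under hℓ P hP h, Int.card_ideal_quot]
  constructor
  · intro hφ x
    have := hφ x
    show φ • x - x ^ Nat.card (ℤ ⧸ P.under ℤ) ∈ P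
    rw [hc]
    exact this
  · intro hφ x
    have : φ • x - x ^ Nat.card (ℤ ⧸ P.under ℤ) ∈ P := hφ x
    rw [hc] at this
    exact this

/-- Existence of a Frobenius element at a prime over `ℓ`. -/
theorem wcb_exists_frob {ℓ : ℕ} (hℓ : ℓ.Prime) (P : Ideal (𝓞 L)) (hP : P.IsPrime)
    (h : (ℓ : 𝓞 L) ∈ P) : ∃ φ : L ≃ₐ[ℚ] L, wc_IsFrob φ P ℓ := by
  haveI := hP
  haveI : Finite (𝓞 L ⧸ P) := wcb_c_finite_quot hℓ P h
  obtain ⟨φ, hφ⟩ := IsArithFrobAt.exists_of_isInvariant ℤ (L ≃ₐ[ℚ] L) P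
  exact ⟨φ, (wcb_isFrob_iff_arith hℓ P hP h φ).2 hφ⟩

/-- A Frobenius element at `P` fixes `P`. -/
theorem wcb_frob_smul {ℓ : ℕ} (hℓ : ℓ.Prime) (P : Ideal (𝓞 L)) (hP : P.IsPrime)
    (h : (ℓ : 𝓞 L) ∈ P) {φ : L ≃ₐ[ℚ] L} (hφ : wc_IsFrob φ P ℓ) : φ • P = P := by
  haveI := hP
  exact ((wcb_isFrob_iff_arith hℓ P hP h φ).1 hφ).mem_stabilizer

/-- Uniqueness of the Frobenius element at an unramified prime. -/
theorem wcb_frob_unique {ℓ : ℕ} (hℓ : ℓ.Prime) (hu : wc_Unram L ℓ) (P : Ideal (𝓞 L))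
    (hP : P.IsPrime) (h : (ℓ : 𝓞 L) ∈ P) {φ ψ : L ≃ₐ[ℚ] L} (hφ : wc_IsFrob φ P ℓ)
    (hψ : wc_IsFrob ψ P ℓ) : φ = ψ := by
  have h1 := (wcb_isFrob_iff_arith hℓ P hP h φ).1 hφ
  have h2 := (wcb_isFrob_iff_arith hℓ P hP h ψ).1 hψ
  have h3 : φ * ψ⁻¹ = 1 :=
    hu P hP h _ (fun x => AddSubgroup.mem_inertia.mp (h1.mul_inv_mem_inertia h2) x)
  rwa [mul_inv_eq_one] at h3

/-- **The decomposition group of an unramified prime is generated by its Frobenius.** -/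
theorem wcb_stabilizer_eq_zpowers {ℓ : ℕ} (hℓ : ℓ.Prime) (hu : wc_Unram L ℓ)
    (P : Ideal (𝓞 L)) (hP : P.IsPrime) (h : (ℓ : 𝓞 L) ∈ P) {φ : L ≃ₐ[ℚ] L}
    (hφ : wc_IsFrob φ P ℓ) :
    MulAction.stabilizer (L ≃ₐ[ℚ] L) P = Subgroup.zpowers φ := by
  haveI := hP
  haveI : Fact ℓ.Prime := ⟨hℓ⟩
  haveI : Finite (𝓞 L ⧸ P) := wcb_c_finite_quot hℓ P h
  haveI : (Ideal.span {(ℓ : ℤ)}).IsMaximal := Int.ideal_span_isMaximal_of_prime ℓ
  haveI : P.LiesOver (Ideal.span {(ℓ : ℤ)}) := ⟨(wcb_c_under hℓ P hP h).symm⟩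
  haveI : Finite (ℤ ⧸ Ideal.span {(ℓ : ℤ)}) := inferInstance
  refine wcb_c_stabilizer_le_zpowers (G := L ≃ₐ[ℚ] L) (Ideal.span {(ℓ : ℤ)}) P
    (fun g _ hg => hu P hP h g hg) φ ?_
  intro x
  rw [Int.card_ideal_quot]
  exact hφ x

/-- The Frobenius element of a prime `P` over `ℓ` (junk value `1` if there is none). -/
noncomputable def wcb_frob (ℓ : ℕ) (P : Ideal (𝓞 L)) : L ≃ₐ[ℚ] L :=
  open Classical in
  if h : ∃ φ : L ≃ₐ[ℚ] L, wc_IsFrob φ P ℓ then h.choose else 1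

theorem wcb_frob_spec {ℓ : ℕ} (hℓ : ℓ.Prime) (P : Ideal (𝓞 L)) (hP : P.IsPrime)
    (h : (ℓ : 𝓞 L) ∈ P) : wc_IsFrob (wcb_frob ℓ P) P ℓ := by
  have hex := wcb_exists_frob hℓ P hP h
  rw [wcb_frob, dif_pos hex]
  exact hex.choose_spec

theorem wcb_isFrob_iff {ℓ : ℕ} (hℓ : ℓ.Prime) (hu : wc_Unram L ℓ) (P : Ideal (𝓞 L))
    (hP : P.IsPrime) (h : (ℓ : 𝓞 L) ∈ P) (c : L ≃ₐ[ℚ] L) :
    wc_IsFrob c P ℓ ↔ wcb_frob ℓ P = c := by
  constructor
  · intro hc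
    exact wcb_frob_unique hℓ hu P hP h (wcb_frob_spec hℓ P hP h) hc
  · rintro rfl
    exact wcb_frob_spec hℓ P hP h

theorem wcb_orderOf_frob {ℓ : ℕ} (hℓ : ℓ.Prime) (hu : wc_Unram L ℓ) (P : Ideal (𝓞 L))
    (hP : P.IsPrime) (h : (ℓ : 𝓞 L) ∈ P) :
    orderOf (wcb_frob ℓ P) = Nat.card (MulAction.stabilizer (L ≃ₐ[ℚ] L) P) := by
  rw [wcb_stabilizer_eq_zpowers hℓ hu P hP h (wcb_frob_spec hℓ P hP h), Nat.card_zpowers]

end nf

/-! ### Orbit–stabiliser sum -/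

section orbit

theorem wcb_c_sum_stabilizer {G α : Type*} [Group G] [MulAction G α] [Finite G] (O : Finset α)
    (a : α) (hO : ∀ b, b ∈ O ↔ b ∈ MulAction.orbit G a) :
    ∑ b ∈ O, Nat.card (MulAction.stabilizer G b) = Nat.card G := by
  classical
  have h1 : ∀ b ∈ O, Nat.card (MulAction.stabilizer G b) =
      Nat.card (MulAction.stabilizer G a) := by
    intro b hb
    have hr : MulAction.orbitRel G α b a := (hO b).1 hb
    exact Nat.card_congr (MulAction.stabilizerEquivStabilizerOfOrbitRel hr).toEquiv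
  rw [Finset.sum_congr rfl h1, Finset.sum_const, smul_eq_mul]
  have h2 : O.card = (MulAction.orbit G a).ncard := by
    rw [← Set.ncard_coe_finset]
    congr 1
    ext b
    exact hO b
  rw [h2, ← MulAction.index_stabilizer, mul_comm]
  exact Subgroup.card_mul_index _

end orbit

/-! ### The fixed field of a subgroup -/

section sub
variable {L : Type*} [Field L] [NumberField L] [IsGalois ℚ L] (H : Subgroup (L ≃ₐ[ℚ] L))

theorem wcb_c_isGaloisGroup :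
    IsGaloisGroup ↥H (𝓞 ↥(IntermediateField.fixedField H)) (𝓞 L) := by
  have : IsGaloisGroup ↥H ↥(IntermediateField.fixedField H) L :=
    IsGaloisGroup.subgroup (L ≃ₐ[ℚ] L) ℚ L H
  exact (inferInstance : @IsGaloisGroup ↥H (𝓞 ↥(IntermediateField.fixedField H)) (𝓞 L) _ _ _ _
    (RingOfIntegers.instMulSemiringAction L))

/-- If `P ∩ L^H` has norm `ℓ`, the Frobenius of `P` lies in `H` and generates the decomposition
group of `P` in `H`. -/
theorem wcb_c_frob_of_norm {ℓ : ℕ} (hℓ : ℓ.Prime) (hu : wc_Unram L ℓ) (P : Ideal (𝓞 L))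
    (hP : P.IsPrime)
    (hN : Ideal.absNorm (P.under (𝓞 ↥(IntermediateField.fixedField H))) = ℓ) :
    (ℓ : 𝓞 L) ∈ P ∧ ∃ h : ↥H, wc_IsFrob (h : L ≃ₐ[ℚ] L) P ℓ ∧
      MulAction.stabilizer ↥H P = Subgroup.zpowers h := by
  haveI := hP
  haveI := wcb_c_isGaloisGroup H
  set 𝔔 : Ideal (𝓞 ↥(IntermediateField.fixedField H)) :=
    P.under (𝓞 ↥(IntermediateField.fixedField H)) with h𝔔
  have hℓ𝔔 : (ℓ : 𝓞 ↥(IntermediateField.fixedField H)) ∈ 𝔔 := by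
    have := Ideal.absNorm_mem 𝔔
    rwa [hN] at this
  have hℓP : (ℓ : 𝓞 L) ∈ P := by
    have h1 : algebraMap (𝓞 ↥(IntermediateField.fixedField H)) (𝓞 L)
        (ℓ : 𝓞 ↥(IntermediateField.fixedField H)) ∈ P := by
      rw [h𝔔, Ideal.under_def, Ideal.mem_comap] at hℓ𝔔
      exact hℓ𝔔
    rwa [map_natCast] at h1
  refine ⟨hℓP, ?_⟩
  haveI : 𝔔.IsPrime := Ideal.IsPrime.under _ P
  haveI : P.LiesOver 𝔔 := ⟨rfl⟩
  haveI : Finite (𝓞 L ⧸ P) := wcb_c_finite_quot hℓ P hℓP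
  have h𝔔ne : 𝔔 ≠ ⊥ := wcb_c_ne_bot hℓ 𝔔 hℓ𝔔
  haveI : 𝔔.IsMaximal := Ideal.IsPrime.isMaximal inferInstance h𝔔ne
  haveI : Finite (𝓞 ↥(IntermediateField.fixedField H) ⧸ 𝔔) :=
    Ideal.finiteQuotientOfFreeOfNeBot 𝔔 h𝔔ne
  have hin : ∀ g : ↥H, g • P = P → (∀ x : 𝓞 L, g • x - x ∈ P) → g = 1 := by
    intro g _ hg
    have : (g : L ≃ₐ[ℚ] L) = 1 := hu P hP hℓP g hg
    exact Subtype.ext this
  obtain ⟨h, hst, hfr, hgen⟩ := wcb_c_exists_frob_gen (G := ↥H) 𝔔 P hin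
  have hcard : Nat.card (𝓞 ↥(IntermediateField.fixedField H) ⧸ 𝔔) = ℓ := by
    rw [← hN, Ideal.absNorm_apply, Submodule.cardQuot_apply]
  refine ⟨h, ?_, ?_⟩
  · intro x
    have := hfr x
    rw [hcard] at this
    exact this
  · apply le_antisymm
    · intro g hg
      exact hgen g hg
    · rw [Subgroup.zpowers_le]
      exact hst

/-- A finite domain in which `x ^ ℓ = x` identically and `ℓ = 0` has exactly `ℓ` elements. -/
theorem wcb_c_card_of_pow_eq {k : Type*} [CommRing k] [IsDomain k] [Finite k] {ℓ : ℕ}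
    (hℓ : ℓ.Prime) (h0 : (ℓ : k) = 0) (hpow : ∀ y : k, y ^ ℓ = y) : Nat.card k = ℓ := by
  classical
  haveI : Fintype k := Fintype.ofFinite k
  letI : Field k := Fintype.fieldOfDomain k
  have hne : (Polynomial.X ^ ℓ - Polynomial.X : Polynomial k) ≠ 0 :=
    FiniteField.X_pow_card_sub_X_ne_zero k hℓ.one_lt
  have hdeg : (Polynomial.X ^ ℓ - Polynomial.X : Polynomial k).natDegree = ℓ :=
    FiniteField.X_pow_card_sub_X_natDegree_eq k hℓ.one_lt
  have hle : Nat.card k ≤ ℓ := by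
    rw [Nat.card_eq_fintype_card, ← Finset.card_univ, ← hdeg]
    apply Polynomial.card_le_degree_of_subset_roots
    intro y _
    rw [Polynomial.mem_roots hne, Polynomial.IsRoot.def]
    simp [hpow y]
  have hdvd : ℓ ∣ Nat.card k := by
    have h1 : addOrderOf (1 : k) ∣ ℓ := by
      apply addOrderOf_dvd_of_nsmul_eq_zero
      rw [nsmul_eq_mul, mul_one]
      exact h0
    have h2 : addOrderOf (1 : k) ≠ 1 := by
      rw [Ne, AddMonoid.addOrderOf_eq_one_iff]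
      exact one_ne_zero
    have h3 : addOrderOf (1 : k) = ℓ := ((Nat.dvd_prime hℓ).1 h1).resolve_left h2
    rw [← h3]
    exact addOrderOf_dvd_natCard 1
  exact Nat.le_antisymm hle (Nat.le_of_dvd Nat.card_pos hdvd)

/-- If the Frobenius of `P` lies in `H`, then `P ∩ L^H` has norm `ℓ`. -/
theorem wcb_c_norm_of_frob {ℓ : ℕ} (hℓ : ℓ.Prime) (P : Ideal (𝓞 L)) (hP : P.IsPrime)
    (h : (ℓ : 𝓞 L) ∈ P) {φ : L ≃ₐ[ℚ] L} (hφH : φ ∈ H) (hφ : wc_IsFrob φ P ℓ) :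
    Ideal.absNorm (P.under (𝓞 ↥(IntermediateField.fixedField H))) = ℓ := by
  haveI := hP
  haveI := wcb_c_isGaloisGroup H
  set 𝔔 : Ideal (𝓞 ↥(IntermediateField.fixedField H)) :=
    P.under (𝓞 ↥(IntermediateField.fixedField H)) with h𝔔
  haveI : 𝔔.IsPrime := Ideal.IsPrime.under _ P
  have hℓ𝔔 : (ℓ : 𝓞 ↥(IntermediateField.fixedField H)) ∈ 𝔔 := by
    rw [h𝔔, Ideal.under_def, Ideal.mem_comap, map_natCast]
    exact h
  have h𝔔ne : 𝔔 ≠ ⊥ := wcb_c_ne_bot hℓ 𝔔 hℓ𝔔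
  haveI : Finite (𝓞 ↥(IntermediateField.fixedField H) ⧸ 𝔔) :=
    Ideal.finiteQuotientOfFreeOfNeBot 𝔔 h𝔔ne
  have hpow : ∀ x : 𝓞 ↥(IntermediateField.fixedField H), x ^ ℓ - x ∈ 𝔔 := by
    intro x
    rw [h𝔔, Ideal.under_def, Ideal.mem_comap, map_sub, map_pow]
    have h1 := hφ (algebraMap (𝓞 ↥(IntermediateField.fixedField H)) (𝓞 L) x)
    have h2 : φ • algebraMap (𝓞 ↥(IntermediateField.fixedField H)) (𝓞 L) x =
        algebraMap (𝓞 ↥(IntermediateField.fixedField H)) (𝓞 L) x := by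
      exact smul_algebraMap (A := 𝓞 L) (⟨φ, hφH⟩ : ↥H) x
    rw [h2] at h1
    have := neg_mem h1
    rwa [neg_sub] at this
  rw [Ideal.absNorm_apply, Submodule.cardQuot_apply]
  apply wcb_c_card_of_pow_eq hℓ
  · rw [← map_natCast (Ideal.Quotient.mk 𝔔), Ideal.Quotient.eq_zero_iff_mem]
    exact hℓ𝔔
  · intro y
    obtain ⟨x, rfl⟩ := Ideal.Quotient.mk_surjective y
    rw [← map_pow, Ideal.Quotient.eq]
    exact hpow x

/-- **`P ∩ L^H` has norm `ℓ` iff the Frobenius of `P` lies in `H`.** -/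
theorem wcb_norm_under_eq_iff {ℓ : ℕ} (hℓ : ℓ.Prime) (hu : wc_Unram L ℓ) (P : Ideal (𝓞 L))
    (hP : P.IsPrime) (h : (ℓ : 𝓞 L) ∈ P) :
    Ideal.absNorm (P.under (𝓞 ↥(IntermediateField.fixedField H))) = ℓ ↔ wcb_frob ℓ P ∈ H := by
  constructor
  · intro hN
    obtain ⟨-, g, hg, -⟩ := wcb_c_frob_of_norm H hℓ hu P hP hN
    rw [(wcb_isFrob_iff hℓ hu P hP h _).1 hg]
    exact g.2
  · intro hH
    exact wcb_c_norm_of_frob H hℓ P hP h hH (wcb_frob_spec hℓ P hP h)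

/-- If `P ∩ L^H` has norm `ℓ`, the order of the Frobenius of `P` is the order of the
decomposition group of `P` in `H`. -/
theorem wcb_c_orderOf_frob_eq {ℓ : ℕ} (hℓ : ℓ.Prime) (hu : wc_Unram L ℓ) (P : Ideal (𝓞 L))
    (hP : P.IsPrime)
    (hN : Ideal.absNorm (P.under (𝓞 ↥(IntermediateField.fixedField H))) = ℓ) :
    orderOf (wcb_frob ℓ P) = Nat.card (MulAction.stabilizer ↥H P) := by
  obtain ⟨h, g, hg, hst⟩ := wcb_c_frob_of_norm H hℓ hu P hP hN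
  rw [(wcb_isFrob_iff hℓ hu P hP h _).1 hg, hst, Nat.card_zpowers, Subgroup.orderOf_coe]

/-- The primes of `L` over a prime `𝔔` of `L^H` form one `H`-orbit. -/
theorem wcb_c_orbit (𝔔 : Ideal (𝓞 ↥(IntermediateField.fixedField H))) (P₀ : Ideal (𝓞 L))
    (hP₀ : P₀.IsPrime) (h₀ : P₀.under (𝓞 ↥(IntermediateField.fixedField H)) = 𝔔)
    (P : Ideal (𝓞 L)) :
    (P.IsPrime ∧ P.under (𝓞 ↥(IntermediateField.fixedField H)) = 𝔔) ↔
      P ∈ MulAction.orbit ↥H P₀ := by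
  haveI := hP₀
  haveI := wcb_c_isGaloisGroup H
  constructor
  · rintro ⟨hP, hPu⟩
    haveI := hP
    obtain ⟨g, hg⟩ := Algebra.IsInvariant.exists_smul_of_under_eq
      (𝓞 ↥(IntermediateField.fixedField H)) (𝓞 L) ↥H P₀ P (h₀.trans hPu.symm)
    exact ⟨g, hg.symm⟩
  · rintro ⟨g, rfl⟩
    refine ⟨inferInstance, ?_⟩
    exact (Ideal.under_smul (𝓞 ↥(IntermediateField.fixedField H)) P₀ g).trans h₀

/-- **The counting identity** `∑_{c ∈ H} ord(c) · N_ℓ(c) = |H| · a_{L^H}(ℓ)` at an unramified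
prime `ℓ`. -/
theorem wcb_count' {ℓ : ℕ} (hℓ : ℓ.Prime) (hu : wc_Unram L ℓ) (H : Subgroup (L ≃ₐ[ℚ] L)) :
    ∑ᶠ c : ↥H, orderOf (c : L ≃ₐ[ℚ] L) * wc_N L ℓ (c : L ≃ₐ[ℚ] L) =
      Nat.card ↥H * wc_a ↥(IntermediateField.fixedField H) ℓ := by
  classical
  haveI : Fintype (L ≃ₐ[ℚ] L) := Fintype.ofFinite _
  set X : Finset (Ideal (𝓞 L)) := (wcb_primes_finite (L := L) hℓ).toFinset with hXdef
  have hX : ∀ P, P ∈ X ↔ P.IsPrime ∧ (ℓ : 𝓞 L) ∈ P := fun P => by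
    rw [hXdef, Set.Finite.mem_toFinset, Set.mem_ofPred_eq]
  set Y : Finset (Ideal (𝓞 ↥(IntermediateField.fixedField H))) :=
    (Ideal.finite_setOfPred_absNorm_eq (S := 𝓞 ↥(IntermediateField.fixedField H)) ℓ).toFinset
    with hYdef
  have hY : ∀ 𝔔, 𝔔 ∈ Y ↔ Ideal.absNorm 𝔔 = ℓ := fun 𝔔 => by
    rw [hYdef, Set.Finite.mem_toFinset, Set.mem_ofPred_eq]
  set X' : Finset (Ideal (𝓞 L)) := X.filter (fun P => wcb_frob ℓ P ∈ H) with hX'def
  -- the left-hand side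
  have hN : ∀ c : L ≃ₐ[ℚ] L, wc_N L ℓ c = (X.filter (fun P => wcb_frob ℓ P = c)).card := by
    intro c
    have e : {P : Ideal (𝓞 L) // P.IsPrime ∧ (ℓ : 𝓞 L) ∈ P ∧ wc_IsFrob c P ℓ} ≃
        {P // P ∈ X.filter (fun P => wcb_frob ℓ P = c)} :=
      Equiv.subtypeEquivRight (fun P => by
        rw [Finset.mem_filter, hX]
        constructor
        · rintro ⟨h1, h2, h3⟩
          exact ⟨⟨h1, h2⟩, (wcb_isFrob_iff hℓ hu P h1 h2 c).1 h3⟩
        · rintro ⟨⟨h1, h2⟩, h3⟩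
          exact ⟨h1, h2, (wcb_isFrob_iff hℓ hu P h1 h2 c).2 h3⟩)
    rw [wc_N, Nat.card_congr e, Nat.card_eq_fintype_card, Fintype.card_coe]
  have h1 : ∀ c : L ≃ₐ[ℚ] L, orderOf c * wc_N L ℓ c =
      ∑ P ∈ X.filter (fun P => wcb_frob ℓ P = c), orderOf (wcb_frob ℓ P) := by
    intro c
    rw [hN, Finset.sum_congr rfl (fun P hP => by rw [(Finset.mem_filter.1 hP).2]),
      Finset.sum_const, smul_eq_mul, mul_comm]
  have hL : ∑ᶠ c : ↥H, orderOf (c : L ≃ₐ[ℚ] L) * wc_N L ℓ (c : L ≃ₐ[ℚ] L) =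
      ∑ P ∈ X', orderOf (wcb_frob ℓ P) := by
    rw [finsum_eq_sum_of_fintype,
      ← Finset.sum_subtype (Finset.univ.filter (fun c : L ≃ₐ[ℚ] L => c ∈ H)) (by simp)
        (fun c => orderOf c * wc_N L ℓ c),
      ← Finset.sum_fiberwise_of_maps_to (s := X')
        (t := Finset.univ.filter (fun c : L ≃ₐ[ℚ] L => c ∈ H)) (g := wcb_frob ℓ)
        (fun P hP => by
          rw [Finset.mem_filter]
          exact ⟨Finset.mem_univ _, (Finset.mem_filter.1 hP).2⟩)]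
    apply Finset.sum_congr rfl
    intro c hc
    rw [h1]
    apply Finset.sum_congr _ (fun _ _ => rfl)
    ext P
    rw [hX'def, Finset.mem_filter, Finset.mem_filter, Finset.mem_filter]
    constructor
    · rintro ⟨h2, h3⟩
      refine ⟨⟨h2, ?_⟩, h3⟩
      rw [h3]
      exact (Finset.mem_filter.1 hc).2
    · rintro ⟨⟨h2, -⟩, h3⟩
      exact ⟨h2, h3⟩
  -- the right-hand side
  have ha : wc_a ↥(IntermediateField.fixedField H) ℓ = Y.card := by
    rw [wc_a, ← Fintype.card_coe, ← Nat.card_eq_fintype_card]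
    exact Nat.card_congr (Equiv.subtypeEquivRight (fun 𝔔 => (hY 𝔔).symm))
  have hmaps : ∀ P ∈ X', P.under (𝓞 ↥(IntermediateField.fixedField H)) ∈ Y := by
    intro P hP
    rw [hX'def, Finset.mem_filter, hX] at hP
    rw [hY]
    exact (wcb_norm_under_eq_iff H hℓ hu P hP.1.1 hP.1.2).2 hP.2
  have hR : Nat.card ↥H * wc_a ↥(IntermediateField.fixedField H) ℓ =
      ∑ P ∈ X', orderOf (wcb_frob ℓ P) := by
    rw [ha, mul_comm, ← smul_eq_mul, ← Finset.sum_const,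
      ← Finset.sum_fiberwise_of_maps_to (s := X') (t := Y)
        (g := fun P => P.under (𝓞 ↥(IntermediateField.fixedField H))) hmaps]
    apply Finset.sum_congr rfl
    intro 𝔔 h𝔔
    rw [hY] at h𝔔
    -- a prime over `𝔔`
    haveI h𝔔p : 𝔔.IsPrime :=
      Ideal.isPrime_of_irreducible_absNorm (by rw [h𝔔]; exact hℓ)
    obtain ⟨P₀, -, hP₀, hP₀u⟩ := Ideal.exists_ideal_over_prime_of_isIntegral 𝔔
      (⊥ : Ideal (𝓞 L)) (by
        rw [Ideal.comap_bot_of_injective _ (FaithfulSMul.algebraMap_injective _ _)]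
        exact bot_le)
    have hP₀u' : P₀.under (𝓞 ↥(IntermediateField.fixedField H)) = 𝔔 := hP₀u
    -- membership in the fibre
    have hfib : ∀ P, P ∈ X'.filter
        (fun P => P.under (𝓞 ↥(IntermediateField.fixedField H)) = 𝔔) ↔
        P ∈ MulAction.orbit ↥H P₀ := by
      intro P
      rw [← wcb_c_orbit H 𝔔 P₀ hP₀ hP₀u' P, Finset.mem_filter, hX'def, Finset.mem_filter, hX]
      constructor
      · rintro ⟨⟨⟨h2, -⟩, -⟩, h3⟩
        exact ⟨h2, h3⟩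
      · rintro ⟨h2, h3⟩
        have hN' : Ideal.absNorm (P.under (𝓞 ↥(IntermediateField.fixedField H))) = ℓ := by
          rw [h3, h𝔔]
        have h4 := (wcb_c_frob_of_norm H hℓ hu P h2 hN').1
        exact ⟨⟨⟨h2, h4⟩, (wcb_norm_under_eq_iff H hℓ hu P h2 h4).1 hN'⟩, h3⟩
    rw [← wcb_c_sum_stabilizer (G := ↥H) _ P₀ hfib]
    apply Finset.sum_congr rfl
    intro P hP
    have hP' := (wcb_c_orbit H 𝔔 P₀ hP₀ hP₀u' P).2 ((hfib P).1 hP)
    exact (wcb_c_orderOf_frob_eq H hℓ hu P hP'.1 (by rw [hP'.2, h𝔔])).symm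
  rw [hL, hR]

variable (L) in
/-- **The counting identity** (leaf (B) of the (WC) cut), `L` explicit. -/
theorem wcb_count {ℓ : ℕ} (hℓ : ℓ.Prime) (hu : wc_Unram L ℓ) (H : Subgroup (L ≃ₐ[ℚ] L)) :
    ∑ᶠ c : ↥H, orderOf (c : L ≃ₐ[ℚ] L) * wc_N L ℓ (c : L ≃ₐ[ℚ] L) =
      Nat.card ↥H * wc_a ↥(IntermediateField.fixedField H) ℓ :=
  wcb_count' hℓ hu H

end sub

end Fermat.Agent.WC
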