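/-
(WC) leaf (E): from the number-field form of weak Chebotarev (`wc_nf`, WC/NumberField.lean) to the
`ℚ̄`-form consumed by the closure lemma [CL] of lead Design Note #17:

for every finite normal `L ⊆ ℚ̄`, every finite set `S` of primes and every `σ ∈ Gal(ℚ̄/ℚ)` there are
a prime `ℓ ∉ S`, a valuation subring `A` of `ℚ̄` over `ℓ`, a Frobenius element `φ` at `A` and a
natural number `k` with `φ ^ k = σ` on `L`.

Owner: helper9.  Prefix `wcf_`.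
-/
import Fermat.Agent.WC.Defs
import Fermat.Agent.S55.Places.Galois

set_option autoImplicit false
set_option linter.style.haveILetI false
set_option linter.unusedSectionVars false

namespace Fermat.Agent.WC

open Fermat.Agent.S54 Fermat.Agent.S14.Reduction Fermat.Agent.S55 NumberField

attribute [local instance] Fermat.Agent.S54.galAction
attribute [local instance] Fermat.Agent.S14.Reduction.algebraIntQbar

open scoped Pointwise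

local notation "GQ" => (AlgebraicClosure ℚ ≃ₐ[ℚ] AlgebraicClosure ℚ)
local notation "Qbar" => AlgebraicClosure ℚ

/-- Instance-path repair: the default `Algebra ℚ (AlgebraicClosure ℚ)` is the division-ring one. -/
local instance wcf_qbarIsAlgebraic : Algebra.IsAlgebraic ℚ (AlgebraicClosure ℚ) :=
  AlgebraicClosure.isAlgebraic ℚ

local instance wcf_qbarIsAlgClosure : IsAlgClosure ℚ (AlgebraicClosure ℚ) :=
  ⟨inferInstance, inferInstance⟩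

/-- In a finite group, membership in `zpowers` is witnessed by a natural power. -/
theorem wcf_exists_pow_of_mem_zpowers {G : Type*} [Group G] [Finite G] {g h : G}
    (hg : g ∈ Subgroup.zpowers h) : ∃ k : ℕ, h ^ k = g := by
  have := (mem_powers_iff_mem_zpowers (x := h) (y := g)).mpr hg
  exact Submonoid.mem_powers_iff g h |>.mp this

section NF

variable (K : IntermediateField ℚ Qbar) [FiniteDimensional ℚ K] [IsGalois ℚ K] [NumberField K]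

/-- A Frobenius element maps its prime into itself. -/
theorem wcf_frob_smul_mem {φ : K ≃ₐ[ℚ] K} {P : Ideal (𝓞 K)} {ℓ : ℕ} (hℓ : ℓ ≠ 0)
    (hφ : wc_IsFrob φ P ℓ) {x : 𝓞 K} (hx : x ∈ P) : φ • x ∈ P := by
  have h1 : φ • x = (φ • x - x ^ ℓ) + x ^ ℓ := by ring
  rw [h1]
  exact P.add_mem (hφ x) (Ideal.pow_mem_of_mem P hx ℓ (Nat.pos_of_ne_zero hℓ))

theorem wcf_frob_pow_smul_mem {φ : K ≃ₐ[ℚ] K} {P : Ideal (𝓞 K)} {ℓ : ℕ} (hℓ : ℓ ≠ 0)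
    (hφ : wc_IsFrob φ P ℓ) (n : ℕ) {x : 𝓞 K} (hx : x ∈ P) : (φ ^ n) • x ∈ P := by
  induction n with
  | zero => simpa using hx
  | succ n ih =>
    rw [pow_succ', mul_smul]
    exact wcf_frob_smul_mem K hℓ hφ ih

theorem wcf_frob_inv_smul_mem {φ : K ≃ₐ[ℚ] K} {P : Ideal (𝓞 K)} {ℓ : ℕ} (hℓ : ℓ ≠ 0)
    (hφ : wc_IsFrob φ P ℓ) {x : 𝓞 K} (hx : x ∈ P) : φ⁻¹ • x ∈ P := by
  obtain ⟨k, hk⟩ := wcf_exists_pow_of_mem_zpowers (g := φ⁻¹) (h := φ)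
    (Subgroup.inv_mem _ (Subgroup.mem_zpowers φ))
  rw [← hk]
  exact wcf_frob_pow_smul_mem K hℓ hφ k hx

/-- Two Frobenius elements at an unramified prime are equal. -/
theorem wcf_frob_unique {φ ψ : K ≃ₐ[ℚ] K} {P : Ideal (𝓞 K)} [P.IsPrime] {ℓ : ℕ} (hℓ : ℓ ≠ 0)
    (hu : wc_Unram K ℓ) (hℓP : (ℓ : 𝓞 K) ∈ P)
    (hφ : wc_IsFrob φ P ℓ) (hψ : wc_IsFrob ψ P ℓ) : ψ = φ := by
  have h1 : φ⁻¹ * ψ = 1 := by
    refine hu P inferInstance hℓP _ fun x => ?_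
    have h2 : (φ⁻¹ * ψ) • x - x = φ⁻¹ • (ψ • x - φ • x) := by
      rw [smul_sub, mul_smul, inv_smul_smul]
    rw [h2]
    refine wcf_frob_inv_smul_mem K hℓ hφ ?_
    have h3 : ψ • x - φ • x = (ψ • x - x ^ ℓ) - (φ • x - x ^ ℓ) := by ring
    rw [h3]
    exact P.sub_mem (hψ x) (hφ x)
  calc ψ = φ * (φ⁻¹ * ψ) := by group
    _ = φ := by rw [h1, mul_one]

end NF

/-- (E) with the number-field statement `wc_nf` for `↥L` as an explicit hypothesis. -/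
theorem wcf_main_of_nf (L : IntermediateField ℚ Qbar) [FiniteDimensional ℚ L] [Normal ℚ L]
    [NumberField L] [IsGalois ℚ L]
    (S : Finset ℕ) (σ : Qbar ≃ₐ[ℚ] Qbar)
    (hnf : ∀ σ₀ : L ≃ₐ[ℚ] L, ∃ (ℓ : ℕ) (P : Ideal (𝓞 L)) (φ : L ≃ₐ[ℚ] L),
      ℓ.Prime ∧ ℓ ∉ S ∧ wc_Unram L ℓ ∧ P.IsPrime ∧ (ℓ : 𝓞 L) ∈ P ∧ wc_IsFrob φ P ℓ ∧
        σ₀ ∈ Subgroup.zpowers φ) :
    ∃ (ℓ : ℕ) (A : ValuationSubring Qbar) (φ : Qbar ≃ₐ[ℚ] Qbar) (k : ℕ),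
      ℓ.Prime ∧ ℓ ∉ S ∧ A.LiesOverPrime ℓ ∧ A.IsFrobeniusAt φ ℓ ∧ ∀ x ∈ L, (φ ^ k) x = σ x := by
  classical
  obtain ⟨ℓ, P, φ₀, hℓ, hℓS, hu, hP, hℓP, hφ₀, hσ₀⟩ := hnf (AlgEquiv.restrictNormalHom L σ)
  haveI := hP
  have hP0 : P ≠ ⊥ := by
    intro h
    rw [h, Ideal.mem_bot] at hℓP
    exact (Nat.cast_ne_zero.2 hℓ.ne_zero : ((ℓ : ℕ) : 𝓞 L) ≠ 0) hℓP
  haveI hPmax : P.IsMaximal := Ideal.IsPrime.isMaximal hP hP0
  obtain ⟨Q, hQmax, hQP⟩ := Ideal.exists_maximal_ideal_liesOver_of_isIntegral (S := intQbar) P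
  haveI := hQmax
  haveI := hQP
  haveI hQprime : Q.IsPrime := hQmax.isPrime
  have hmemQ : ∀ x : 𝓞 L, toIntQbar L x ∈ Q ↔ x ∈ P := by
    intro x
    rw [hQP.over]
    rfl
  haveI hspanmax : (Ideal.span {(ℓ : ℤ)}).IsMaximal :=
    PrincipalIdealRing.isMaximal_of_irreducible (Nat.prime_iff_prime_int.mp hℓ).irreducible
  haveI hQℓ : Q.LiesOver (Ideal.span {(ℓ : ℤ)}) := by
    constructor
    refine hspanmax.eq_of_le (Ideal.IsPrime.ne_top (Ideal.IsPrime.under ℤ Q)) ?_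
    rw [Ideal.span_singleton_le_iff_mem, Ideal.under_def, Ideal.mem_comap]
    have h1 : toIntQbar L ((ℓ : ℕ) : 𝓞 L) ∈ Q := (hmemQ _).mpr hℓP
    have h2 : algebraMap ℤ intQbar (ℓ : ℤ) = toIntQbar L ((ℓ : ℕ) : 𝓞 L) := by
      rw [map_natCast]
      simp
    rw [h2]
    exact h1
  obtain ⟨φ, hφQ, hφ⟩ := exists_frob_intQbar hℓ Q
  -- the restriction of `φ` is a Frobenius element at `P`
  have hφ₁ : wc_IsFrob (AlgEquiv.restrictNormalHom L φ) P ℓ := by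
    intro x
    rw [← hmemQ, map_sub, map_pow, ← pl_smul_toIntQbar]
    exact hφ _
  have heq : AlgEquiv.restrictNormalHom L φ = φ₀ :=
    wcf_frob_unique L hℓ.ne_zero hu hℓP hφ₀ hφ₁
  obtain ⟨k, hk⟩ := wcf_exists_pow_of_mem_zpowers hσ₀
  refine ⟨ℓ, valSubring hℓ Q, φ, k, hℓ, hℓS, liesOverPrime_valSubring hℓ Q,
    isFrobeniusAt_valSubring hℓ Q hφQ hφ, fun x hx => ?_⟩
  have h1 : AlgEquiv.restrictNormalHom L (φ ^ k) = AlgEquiv.restrictNormalHom L σ := by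
    rw [map_pow, heq, hk]
  have h2 := coe_restrictNormalHom L (φ ^ k) ⟨x, hx⟩
  have h3 := coe_restrictNormalHom L σ ⟨x, hx⟩
  rw [← h2, ← h3, h1]

/-- The statement of `wc_nf` (WC/NumberField.lean) for number fields in `Type`. -/
def wcf_NF : Prop :=
  ∀ (L : Type) [Field L] [NumberField L] [IsGalois ℚ L] (S : Finset ℕ) (σ : L ≃ₐ[ℚ] L),
    ∃ (ℓ : ℕ) (P : Ideal (𝓞 L)) (φ : L ≃ₐ[ℚ] L), ℓ.Prime ∧ ℓ ∉ S ∧ wc_Unram L ℓ ∧ P.IsPrime ∧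
      (ℓ : 𝓞 L) ∈ P ∧ wc_IsFrob φ P ℓ ∧ σ ∈ Subgroup.zpowers φ

/-- (E): `wc_main` of the (WC) plan, with `wc_nf` as the hypothesis `wcf_NF`. -/
theorem wcf_main (hNF : wcf_NF) (L : IntermediateField ℚ Qbar) [FiniteDimensional ℚ L]
    [Normal ℚ L] (S : Finset ℕ) (σ : Qbar ≃ₐ[ℚ] Qbar) :
    ∃ (ℓ : ℕ) (A : ValuationSubring Qbar) (φ : Qbar ≃ₐ[ℚ] Qbar) (k : ℕ),
      ℓ.Prime ∧ ℓ ∉ S ∧ A.LiesOverPrime ℓ ∧ A.IsFrobeniusAt φ ℓ ∧ ∀ x ∈ L, (φ ^ k) x = σ x := by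
  haveI : NumberField L := ⟨⟩
  haveI : IsGalois ℚ L := ⟨⟩
  exact wcf_main_of_nf L S σ fun σ₀ => hNF L S σ₀

end Fermat.Agent.WC
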