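/-
(WC) weak Chebotarev: the calculus of `wc_Mass` (`F s = c · log (1/(s-1)) + O(1)` as `s → 1⁺`) and of
the prime Dirichlet series `wc_P`.
Owner: helper19.  Prefix `wc_`.
-/
import Fermat.Agent.WC.Defs

set_option autoImplicit false

open NumberField Filter Topology

namespace Fermat.Agent.WC

/-! ### `wc_m` -/

theorem wc_m_tendsto : Tendsto wc_m (𝓝[>] (1 : ℝ)) atTop := by
  unfold wc_m
  refine Real.tendsto_log_atTop.comp ?_
  have h1 : Tendsto (fun s : ℝ => s - 1) (𝓝[>] (1 : ℝ)) (𝓝[>] (0 : ℝ)) := by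
    refine tendsto_nhdsWithin_of_tendsto_nhds_of_eventually_within _ ?_ ?_
    · have : Tendsto (fun s : ℝ => s - 1) (𝓝 (1 : ℝ)) (𝓝 (1 - 1)) :=
        (continuous_id.sub continuous_const).tendsto 1
      rw [sub_self] at this
      exact this.mono_left nhdsWithin_le_nhds
    · filter_upwards [self_mem_nhdsWithin] with s hs
      exact sub_pos.2 (Set.mem_Ioi.1 hs)
  have h2 : Tendsto (fun x : ℝ => 1 / x) (𝓝[>] (0 : ℝ)) atTop := by
    simpa [one_div] using tendsto_inv_nhdsGT_zero (𝕜 := ℝ)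
  exact h2.comp h1

/-! ### `wc_Mass` -/

theorem wc_Mass.add {F G : ℝ → ℝ} {c d : ℝ} (hF : wc_Mass F c) (hG : wc_Mass G d) :
    wc_Mass (fun s => F s + G s) (c + d) := by
  obtain ⟨C, hC⟩ := hF
  obtain ⟨D, hD⟩ := hG
  refine ⟨C + D, ?_⟩
  filter_upwards [hC, hD] with s h1 h2
  have : F s + G s - (c + d) * wc_m s = (F s - c * wc_m s) + (G s - d * wc_m s) := by ring
  rw [this]
  exact (abs_add_le _ _).trans (add_le_add h1 h2)

theorem wc_Mass.const_mul {F : ℝ → ℝ} {c : ℝ} (k : ℝ) (hF : wc_Mass F c) :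
    wc_Mass (fun s => k * F s) (k * c) := by
  obtain ⟨C, hC⟩ := hF
  refine ⟨|k| * C, ?_⟩
  filter_upwards [hC] with s h1
  have : k * F s - k * c * wc_m s = k * (F s - c * wc_m s) := by ring
  rw [this, abs_mul]
  exact mul_le_mul_of_nonneg_left h1 (abs_nonneg k)

theorem wc_Mass.neg {F : ℝ → ℝ} {c : ℝ} (hF : wc_Mass F c) : wc_Mass (fun s => - F s) (-c) := by
  have := hF.const_mul (-1)
  simpa using this

theorem wc_Mass.sub {F G : ℝ → ℝ} {c d : ℝ} (hF : wc_Mass F c) (hG : wc_Mass G d) :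
    wc_Mass (fun s => F s - G s) (c - d) := by
  have := hF.add hG.neg
  simpa [sub_eq_add_neg] using this

theorem wc_Mass.congr {F G : ℝ → ℝ} {c : ℝ} (hF : wc_Mass F c)
    (h : ∀ᶠ s in 𝓝[>] (1 : ℝ), F s = G s) : wc_Mass G c := by
  obtain ⟨C, hC⟩ := hF
  refine ⟨C, ?_⟩
  filter_upwards [hC, h] with s h1 h2
  rw [← h2]
  exact h1

/-- A version of `congr` for functions agreeing on `s > 1`. -/
theorem wc_Mass.congr' {F G : ℝ → ℝ} {c : ℝ} (hF : wc_Mass F c)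
    (h : ∀ s : ℝ, 1 < s → F s = G s) : wc_Mass G c :=
  hF.congr (by filter_upwards [self_mem_nhdsWithin] with s hs using h s hs)

theorem wc_Mass.congr_coeff {F : ℝ → ℝ} {c d : ℝ} (hF : wc_Mass F c) (h : c = d) :
    wc_Mass F d := h ▸ hF

/-- A function bounded near `1⁺` has mass `0`. -/
theorem wc_Mass.of_bounded {F : ℝ → ℝ} {C : ℝ} (h : ∀ᶠ s in 𝓝[>] (1 : ℝ), |F s| ≤ C) :
    wc_Mass F 0 := by
  refine ⟨C, ?_⟩
  filter_upwards [h] with s hs
  simpa using hs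

theorem wc_Mass.zero : wc_Mass (fun _ => (0 : ℝ)) 0 :=
  wc_Mass.of_bounded (C := 0) (Eventually.of_forall fun _ => by simp)

/-- A finite sum of masses. -/
theorem wc_Mass.sum {ι : Type*} (t : Finset ι) (F : ι → ℝ → ℝ) (c : ι → ℝ)
    (h : ∀ i ∈ t, wc_Mass (F i) (c i)) :
    wc_Mass (fun s => ∑ i ∈ t, F i s) (∑ i ∈ t, c i) := by
  classical
  induction t using Finset.induction_on with
  | empty => simpa using wc_Mass.zero
  | insert a t ha ih =>
    have h1 := h a (Finset.mem_insert_self a t)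
    have h2 := ih (fun i hi => h i (Finset.mem_insert_of_mem hi))
    have h3 := h1.add h2
    refine (h3.congr' (fun s _ => ?_)).congr_coeff ?_
    · rw [Finset.sum_insert ha]
    · rw [Finset.sum_insert ha]

/-- **A positive mass is eventually positive.** -/
theorem wc_Mass.eventually_pos {F : ℝ → ℝ} {c : ℝ} (hF : wc_Mass F c) (hc : 0 < c) :
    ∀ᶠ s in 𝓝[>] (1 : ℝ), 0 < F s := by
  obtain ⟨C, hC⟩ := hF
  have h1 : ∀ᶠ s in 𝓝[>] (1 : ℝ), C / c < wc_m s :=
    wc_m_tendsto.eventually (eventually_gt_atTop (C / c))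
  filter_upwards [hC, h1] with s h2 h3
  have h4 : C < c * wc_m s := by
    rw [div_lt_iff₀ hc] at h3
    linarith
  have h5 := (abs_le.1 h2).1
  linarith

theorem wc_Mass.exists_pos {F : ℝ → ℝ} {c : ℝ} (hF : wc_Mass F c) (hc : 0 < c) :
    ∃ s : ℝ, 1 < s ∧ 0 < F s := by
  have h1 := hF.eventually_pos hc
  have h2 : ∀ᶠ s in 𝓝[>] (1 : ℝ), 1 < s := self_mem_nhdsWithin
  obtain ⟨s, hs1, hs2⟩ := (h2.and h1).exists
  exact ⟨s, hs1, hs2⟩

/-! ### `wc_P` -/

theorem wc_P_summable {f : ℕ → ℝ} {B : ℝ} (hf : ∀ p : ℕ, p.Prime → |f p| ≤ B) {s : ℝ}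
    (hs : 1 < s) : Summable fun p : Nat.Primes => f p * ((p : ℕ) : ℝ) ^ (-s) := by
  have h1 : Summable fun p : Nat.Primes => B * ((p : ℕ) : ℝ) ^ (-s) :=
    (Nat.Primes.summable_rpow.2 (by linarith)).mul_left B
  refine Summable.of_norm_bounded h1 (fun p => ?_)
  rw [Real.norm_eq_abs, abs_mul]
  have h2 : (0 : ℝ) ≤ ((p : ℕ) : ℝ) ^ (-s) := Real.rpow_nonneg (Nat.cast_nonneg _) _
  rw [abs_of_nonneg h2]
  exact mul_le_mul_of_nonneg_right (hf p p.2) h2

theorem wc_P_add {f g : ℕ → ℝ} {B B' : ℝ} (hf : ∀ p : ℕ, p.Prime → |f p| ≤ B)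
    (hg : ∀ p : ℕ, p.Prime → |g p| ≤ B') {s : ℝ} (hs : 1 < s) : wc_P (fun p => f p + g p) s = wc_P f s + wc_P g s := by
  unfold wc_P
  rw [← (wc_P_summable hf hs).tsum_add (wc_P_summable hg hs)]
  refine tsum_congr fun p => ?_
  ring

theorem wc_P_sub {f g : ℕ → ℝ} {B B' : ℝ} (hf : ∀ p : ℕ, p.Prime → |f p| ≤ B)
    (hg : ∀ p : ℕ, p.Prime → |g p| ≤ B') {s : ℝ} (hs : 1 < s) : wc_P (fun p => f p - g p) s = wc_P f s - wc_P g s := by
  unfold wc_P
  rw [← (wc_P_summable hf hs).tsum_sub (wc_P_summable hg hs)]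
  refine tsum_congr fun p => ?_
  ring

theorem wc_P_const_mul (k : ℝ) (f : ℕ → ℝ) (s : ℝ) :
    wc_P (fun p => k * f p) s = k * wc_P f s := by
  unfold wc_P
  rw [← tsum_mul_left]
  refine tsum_congr fun p => ?_
  ring

theorem wc_P_sum {ι : Type*} (t : Finset ι) (f : ι → ℕ → ℝ) {B : ℝ}
    (hf : ∀ (i : ι) (p : ℕ), p.Prime → |f i p| ≤ B) {s : ℝ} (hs : 1 < s) :
    wc_P (fun p => ∑ i ∈ t, f i p) s = ∑ i ∈ t, wc_P (f i) s := by
  unfold wc_P
  rw [← Summable.tsum_finsetSum (fun i _ => wc_P_summable (hf i) hs)]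
  refine tsum_congr fun p => ?_
  rw [Finset.sum_mul]

/-- The prime Dirichlet series only depends on the values at the primes. -/
theorem wc_P_congr {f g : ℕ → ℝ} (h : ∀ p : ℕ, p.Prime → f p = g p) (s : ℝ) :
    wc_P f s = wc_P g s := by
  unfold wc_P
  refine tsum_congr fun p => ?_
  rw [h p p.2]

/-- Coefficientwise nonnegativity. -/
theorem wc_P_nonneg {f : ℕ → ℝ} (hf : ∀ p, 0 ≤ f p) (s : ℝ) : 0 ≤ wc_P f s :=
  tsum_nonneg fun p => mul_nonneg (hf p) (Real.rpow_nonneg (Nat.cast_nonneg _) _)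

/-- If the prime Dirichlet series is non-zero, some coefficient at a prime is non-zero. -/
theorem wc_P_exists_ne_zero {f : ℕ → ℝ} {s : ℝ} (h : wc_P f s ≠ 0) :
    ∃ p : ℕ, p.Prime ∧ f p ≠ 0 := by
  by_contra hne
  have hne : ∀ p : ℕ, p.Prime → f p = 0 := fun p hp => by
    by_contra h0
    exact hne ⟨p, hp, h0⟩
  apply h
  unfold wc_P
  have : (fun p : Nat.Primes => f p * ((p : ℕ) : ℝ) ^ (-s)) = fun _ => 0 := by
    funext p
    rw [hne p p.2, zero_mul]
  rw [this, tsum_zero]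

/-- A coefficient function with finite support has mass `0`. -/
theorem wc_Mass_P_of_finite {f : ℕ → ℝ} (hf : {p : ℕ | f p ≠ 0}.Finite) : wc_Mass (wc_P f) 0 := by
  classical
  have hf' : {p : Nat.Primes | f p ≠ 0}.Finite :=
    hf.preimage (Subtype.val_injective.injOn)
  refine wc_Mass.of_bounded (C := ∑ p ∈ hf'.toFinset, |f p|) ?_
  filter_upwards [self_mem_nhdsWithin] with s hs
  have hs0 : (0 : ℝ) < s := lt_trans zero_lt_one hs
  unfold wc_P
  rw [tsum_eq_sum (s := hf'.toFinset)]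
  · refine (Finset.abs_sum_le_sum_abs _ _).trans (Finset.sum_le_sum fun p _ => ?_)
    rw [abs_mul]
    have h1 : |((p : ℕ) : ℝ) ^ (-s)| ≤ 1 := by
      rw [abs_of_nonneg (Real.rpow_nonneg (Nat.cast_nonneg _) _)]
      refine Real.rpow_le_one_of_one_le_of_nonpos ?_ (by linarith)
      exact_mod_cast p.2.one_lt.le
    calc |f p| * |((p : ℕ) : ℝ) ^ (-s)| ≤ |f p| * 1 :=
          mul_le_mul_of_nonneg_left h1 (abs_nonneg _)
      _ = |f p| := mul_one _
  · intro p hp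
    rw [Set.Finite.mem_toFinset] at hp
    have hp0 : f p = 0 := by
      by_contra h0
      exact hp h0
    rw [hp0, zero_mul]

end Fermat.Agent.WC
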