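/-
(WC) weak Chebotarev, leaf (B-α) (helper23): Frobenius elements and decomposition groups.
For a Galois number field `L`, a rational prime `ℓ` and a prime `P` of `𝓞 L` over `ℓ`:
* `wcd_frob_exists`    : a Frobenius element at `P` exists;
* `wcd_frob_unique`    : it is unique when the inertia groups over `ℓ` are trivial;
* `wcd_stabilizer_eq`  : the decomposition group of `P` is then generated by the Frobenius;
* `wcd_smul_mem`       : the Galois group permutes the primes over `ℓ`.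
Prefix `wcd_`.
-/
import Fermat.Agent.WC.FrobBasic

set_option autoImplicit false
set_option linter.unusedSectionVars false
set_option linter.style.haveILetI false

open NumberField Ideal

open scoped Pointwise

namespace Fermat.Agent.WC

variable (L : Type*) [Field L] [NumberField L] [IsGalois ℚ L]

variable {L}

/-- the Galois group fixes the rational integers of `𝓞 L` -/
theorem wcd_smul_natCast (g : L ≃ₐ[ℚ] L) (n : ℕ) : g • (n : 𝓞 L) = (n : 𝓞 L) :=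
  map_natCast (MulSemiringAction.toRingHom (L ≃ₐ[ℚ] L) (𝓞 L) g) n

/-- the exponent of a Frobenius congruence at a prime is nonzero -/
theorem wcd_ne_zero {ℓ : ℕ} {P : Ideal (𝓞 L)} (hP : P.IsPrime) {c : L ≃ₐ[ℚ] L}
    (hc : wc_IsFrob c P ℓ) : ℓ ≠ 0 := by
  rintro rfl
  apply hP.ne_top
  rw [Ideal.eq_top_iff_one]
  have h := hc 0
  rw [smul_zero, pow_zero, zero_sub] at h
  simpa using P.neg_mem h

/-- a Frobenius element maps its prime into itself -/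
theorem wcd_frob_smul_mem {ℓ : ℕ} {P : Ideal (𝓞 L)} (hP : P.IsPrime) {c : L ≃ₐ[ℚ] L}
    (hc : wc_IsFrob c P ℓ) {x : 𝓞 L} (hx : x ∈ P) : c • x ∈ P := by
  have h1 : c • x = (c • x - x ^ ℓ) + x ^ ℓ := by ring
  rw [h1]
  exact P.add_mem (hc x)
    (Ideal.pow_mem_of_mem P hx ℓ (Nat.pos_of_ne_zero (wcd_ne_zero hP hc)))

theorem wcd_frob_pow_smul_mem {ℓ : ℕ} {P : Ideal (𝓞 L)} (hP : P.IsPrime) {c : L ≃ₐ[ℚ] L}
    (hc : wc_IsFrob c P ℓ) (n : ℕ) {x : 𝓞 L} (hx : x ∈ P) : (c ^ n) • x ∈ P := by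
  induction n with
  | zero => simpa using hx
  | succ n ih =>
    rw [pow_succ', mul_smul]
    exact wcd_frob_smul_mem hP hc ih

/-- in a finite group the inverse is a natural power -/
theorem wcd_exists_pow_eq_inv {G : Type*} [Group G] [Finite G] (g : G) : ∃ k : ℕ, g ^ k = g⁻¹ := by
  have h : g⁻¹ ∈ Submonoid.powers g :=
    (mem_powers_iff_mem_zpowers (x := g) (y := g⁻¹)).mpr
      (Subgroup.inv_mem _ (Subgroup.mem_zpowers g))
  exact (Submonoid.mem_powers_iff g⁻¹ g).mp h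

theorem wcd_frob_zpow_smul_mem {ℓ : ℕ} {P : Ideal (𝓞 L)} (hP : P.IsPrime) {c : L ≃ₐ[ℚ] L}
    (hc : wc_IsFrob c P ℓ) (n : ℕ) {x : 𝓞 L} (hx : x ∈ P) : (c ^ n)⁻¹ • x ∈ P := by
  obtain ⟨k, hk⟩ := wcd_exists_pow_eq_inv (c ^ n)
  rw [← hk, ← pow_mul]
  exact wcd_frob_pow_smul_mem hP hc (n * k) hx

/-- the `n`-th power of a Frobenius element raises to the `ℓ ^ n`-th power modulo `P` -/
theorem wcd_frob_pow {ℓ : ℕ} {P : Ideal (𝓞 L)} (hP : P.IsPrime) {c : L ≃ₐ[ℚ] L}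
    (hc : wc_IsFrob c P ℓ) (n : ℕ) (x : 𝓞 L) : (c ^ n) • x - x ^ ℓ ^ n ∈ P := by
  induction n generalizing x with
  | zero => simp
  | succ n ih =>
    have h1 : (c ^ (n + 1)) • x - x ^ ℓ ^ (n + 1) =
        (c ^ n) • (c • x - x ^ ℓ) + ((c ^ n) • (x ^ ℓ) - (x ^ ℓ) ^ ℓ ^ n) := by
      rw [pow_succ, mul_smul, smul_sub, ← pow_mul, pow_succ']
      ring
    rw [h1]
    exact P.add_mem (wcd_frob_pow_smul_mem hP hc n (hc x)) (ih (x ^ ℓ))

variable (L)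

/-- **The Galois group permutes the primes over `ℓ`.** -/
theorem wcd_smul_mem {ℓ : ℕ} {P : Ideal (𝓞 L)} (hP : P.IsPrime) (hℓP : (ℓ : 𝓞 L) ∈ P)
    (g : L ≃ₐ[ℚ] L) : (g • P).IsPrime ∧ (ℓ : 𝓞 L) ∈ g • P := by
  haveI := hP
  refine ⟨Ideal.IsPrime.smul g, ?_⟩
  rw [← wcd_smul_natCast g ℓ, Ideal.smul_mem_pointwise_smul_iff]
  exact hℓP

/-- the residue field of `ℤ` at `ℓ` has `ℓ` elements, in the `under` form -/
theorem wcd_card_under {ℓ : ℕ} (hℓ : ℓ.Prime) {P : Ideal (𝓞 L)} (hP : P.IsPrime)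
    (hℓP : (ℓ : 𝓞 L) ∈ P) : Nat.card (ℤ ⧸ P.under ℤ) = ℓ := by
  have h := (wcb_b_mem_primesOver hℓ hP hℓP).2
  rw [← h.over, Int.card_ideal_quot]

/-- the Mathlib form of the Frobenius congruence -/
theorem wcd_isArithFrobAt_iff {ℓ : ℕ} (hℓ : ℓ.Prime) {P : Ideal (𝓞 L)} (hP : P.IsPrime)
    (hℓP : (ℓ : 𝓞 L) ∈ P) (c : L ≃ₐ[ℚ] L) : IsArithFrobAt ℤ c P ↔ wc_IsFrob c P ℓ := by
  unfold IsArithFrobAt AlgHom.IsArithFrobAt wc_IsFrob
  rw [wcd_card_under L hℓ hP hℓP]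
  rfl

/-- **Existence of a Frobenius element.** -/
theorem wcd_frob_exists {ℓ : ℕ} (hℓ : ℓ.Prime) {P : Ideal (𝓞 L)} (hP : P.IsPrime)
    (hℓP : (ℓ : 𝓞 L) ∈ P) : ∃ c : L ≃ₐ[ℚ] L, wc_IsFrob c P ℓ := by
  haveI := hP
  have hP0 : P ≠ ⊥ := by
    rintro rfl
    rw [Ideal.mem_bot, Nat.cast_eq_zero] at hℓP
    exact hℓ.ne_zero hℓP
  haveI : Finite (𝓞 L ⧸ P) := Ring.HasFiniteQuotients.finiteQuotient hP0
  obtain ⟨c, hc⟩ := IsArithFrobAt.exists_of_isInvariant ℤ (L ≃ₐ[ℚ] L) P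
  exact ⟨c, (wcd_isArithFrobAt_iff L hℓ hP hℓP c).1 hc⟩

/-- **Uniqueness of the Frobenius element at a prime with trivial inertia.** -/
theorem wcd_frob_unique {ℓ : ℕ} (hu : wc_Unram L ℓ) {P : Ideal (𝓞 L)} (hP : P.IsPrime)
    (hℓP : (ℓ : 𝓞 L) ∈ P) {c c' : L ≃ₐ[ℚ] L} (hc : wc_IsFrob c P ℓ) (hc' : wc_IsFrob c' P ℓ) :
    c = c' := by
  have h1 : c⁻¹ * c' = 1 := by
    refine hu P hP hℓP _ fun x => ?_
    have h2 : (c⁻¹ * c') • x - x = c⁻¹ • (c' • x - c • x) := by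
      rw [smul_sub, mul_smul, inv_smul_smul]
    rw [h2]
    have h3 : c' • x - c • x ∈ P := by
      have h4 : c' • x - c • x = (c' • x - x ^ ℓ) - (c • x - x ^ ℓ) := by ring
      rw [h4]
      exact P.sub_mem (hc' x) (hc x)
    have h5 := wcd_frob_zpow_smul_mem hP hc 1 h3
    rwa [pow_one] at h5
  calc c = c * (c⁻¹ * c') := by rw [h1, mul_one]
    _ = c' := by group

/-- **The decomposition group of an unramified prime is generated by its Frobenius element.** -/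
theorem wcd_stabilizer_eq {ℓ : ℕ} (hℓ : ℓ.Prime) (hu : wc_Unram L ℓ) {P : Ideal (𝓞 L)}
    (hP : P.IsPrime) (hℓP : (ℓ : 𝓞 L) ∈ P) {c : L ≃ₐ[ℚ] L} (hc : wc_IsFrob c P ℓ) :
    MulAction.stabilizer (L ≃ₐ[ℚ] L) P = Subgroup.zpowers c := by
  haveI : Fact ℓ.Prime := ⟨hℓ⟩
  haveI := hP
  haveI hover : P.LiesOver (span {(ℓ : ℤ)}) := (wcb_b_mem_primesOver hℓ hP hℓP).2
  have hP0 : P ≠ ⊥ := by
    rintro rfl
    rw [Ideal.mem_bot, Nat.cast_eq_zero] at hℓP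
    exact hℓ.ne_zero hℓP
  haveI : P.IsMaximal := hP.isMaximal hP0
  haveI : (span {(ℓ : ℤ)}).IsMaximal := Int.ideal_span_isMaximal_of_prime ℓ
  letI := Ideal.Quotient.field P
  letI := Ideal.Quotient.field (span {(ℓ : ℤ)})
  haveI : Finite (𝓞 L ⧸ P) := Ring.HasFiniteQuotients.finiteQuotient hP0
  haveI : Finite (ℤ ⧸ span {(ℓ : ℤ)}) :=
    Nat.finite_of_card_ne_zero (by rw [Int.card_ideal_quot]; exact hℓ.ne_zero)
  haveI : CharP (ℤ ⧸ span {(ℓ : ℤ)}) ℓ := ringChar.of_eq <| Int.ringChar_idealQuot ℓ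
  apply le_antisymm
  · intro g hg
    obtain ⟨i, hi⟩ := FiniteField.exists_forall_apply_eq_pow (ℤ ⧸ span {(ℓ : ℤ)}) ℓ (𝓞 L ⧸ P)
      (Ideal.Quotient.stabilizerHom P (span {(ℓ : ℤ)}) (L ≃ₐ[ℚ] L) ⟨g, hg⟩)
    rw [Int.card_ideal_quot] at hi
    have hgx : ∀ x : 𝓞 L, g • x - x ^ ℓ ^ i ∈ P := by
      intro x
      have h := hi (Ideal.Quotient.mk P x)
      rw [Ideal.Quotient.stabilizerHom_apply, ← map_pow, Ideal.Quotient.eq] at h
      exact h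
    have h1 : (c ^ i)⁻¹ * g = 1 := by
      refine hu P hP hℓP _ fun x => ?_
      have h2 : ((c ^ i)⁻¹ * g) • x - x = (c ^ i)⁻¹ • (g • x - (c ^ i) • x) := by
        rw [smul_sub, mul_smul, inv_smul_smul]
      rw [h2]
      have h3 : g • x - (c ^ i) • x ∈ P := by
        have h4 : g • x - (c ^ i) • x = (g • x - x ^ ℓ ^ i) - ((c ^ i) • x - x ^ ℓ ^ i) := by ring
        rw [h4]
        exact P.sub_mem (hgx x) (wcd_frob_pow hP hc i x)
      exact wcd_frob_zpow_smul_mem hP hc i h3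
    have h5 : g = c ^ i := by
      calc g = c ^ i * ((c ^ i)⁻¹ * g) := by group
        _ = c ^ i := by rw [h1, mul_one]
    rw [h5]
    exact Subgroup.pow_mem _ (Subgroup.mem_zpowers c) i
  · rw [Subgroup.zpowers_le]
    exact IsArithFrobAt.mem_stabilizer ((wcd_isArithFrobAt_iff L hℓ hP hℓP c).2 hc)

end Fermat.Agent.WC
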