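/-
(WC) weak Chebotarev, analytic leaf (A3) and the assembly (A):
* `wcp_summable`      : `∑ a_M(n) n^{-s}` converges for real `s > 1`;
* `wcp_mass_log_zeta` : `log ζ_M(s) = log (1/(s-1)) + O(1)` as `s → 1⁺`;
* `wc_mass_a_of`      : given the multiplicativity package (A1) for `wc_a M`,
                        `∑_p a_M(p) p^{-s} = log (1/(s-1)) + O(1)`.
Owner: helper17.  Prefix `wcp_`.
-/
import Fermat.Agent.WC.Mass
import Fermat.Agent.WC.IdealCount
import Fermat.Agent.WC.Analytic.LogEuler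

set_option autoImplicit false

open NumberField Filter Topology

namespace Fermat.Agent.WC

noncomputable section

variable (M : Type*) [Field M] [NumberField M]

/-- The partial sums of the ideal-counting function grow linearly. -/
theorem wcp_tendsto_sum_div :
    Tendsto (fun n : ℕ => (∑ k ∈ Finset.Icc 1 n, (wc_a M k : ℝ)) / (n : ℝ)) atTop
      (𝓝 (dedekindZeta_residue M)) := by
  refine ((NumberField.Ideal.tendsto_norm_le_div_atTop₀ M).comp
    tendsto_natCast_atTop_atTop).congr fun n ↦ ?_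
  simp only [Function.comp_apply, Nat.cast_le, ← Nat.cast_sum, wc_a]
  congr
  rw [← add_left_inj 1, ← Ideal.card_norm_le_eq_card_norm_le_add_one,
    show Finset.Icc 1 n = Finset.Ioc 0 n from Finset.Icc_succ_left_eq_Ioc _ _,
    show 1 = Nat.card {I : Ideal (𝓞 M) // Ideal.absNorm I = 0} by
      simp [Ideal.absNorm_eq_zero_iff],
    Finset.sum_Ioc_add_eq_sum_Icc (n.zero_le),
    ← Finset.card_preimage_eq_sum_card_image_eq
      (fun k _ ↦ Ideal.finite_setOfPred_absNorm_eq k)]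
  simp [Set.coe_eq_subtype]

/-- The terms of the real Dirichlet series are the terms of the complex `LSeries`. -/
lemma wcp_term_eq {s : ℝ} (hs : 1 < s) (n : ℕ) :
    LSeries.term (fun n => ((wc_a M n : ℝ) : ℂ)) (s : ℂ) n =
      (((wc_a M n : ℝ) * (n : ℝ) ^ (-s) : ℝ) : ℂ) := by
  have hs0 : (s : ℂ) ≠ 0 := by
    rw [Ne, Complex.ofReal_eq_zero]
    linarith
  rw [LSeries.term_of_ne_zero' hs0, Complex.ofReal_mul,
    Real.rpow_neg (Nat.cast_nonneg n), Complex.ofReal_inv,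
    Complex.ofReal_cpow (Nat.cast_nonneg n), div_eq_mul_inv]
  simp

/-- **(A3a)** The Dirichlet series of the ideal-counting function converges for `s > 1`. -/
theorem wcp_summable {s : ℝ} (hs : 1 < s) :
    Summable fun n : ℕ => (wc_a M n : ℝ) * (n : ℝ) ^ (-s) := by
  have h1 : LSeriesSummable (fun n => ((wc_a M n : ℝ) : ℂ)) (s : ℂ) := by
    refine LSeriesSummable_of_sum_norm_bigO_and_nonneg (f := fun n => (wc_a M n : ℝ))
      (r := 1) ?_ (fun n => Nat.cast_nonneg _) zero_le_one (by simpa using hs)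
    exact Asymptotics.isBigO_atTop_natCast_rpow_of_tendsto_div_rpow (a := dedekindZeta_residue M)
      (by simpa using wcp_tendsto_sum_div M)
  unfold LSeriesSummable at h1
  have h2 : Summable fun n : ℕ => (((wc_a M n : ℝ) * (n : ℝ) ^ (-s) : ℝ) : ℂ) :=
    h1.congr fun n => wcp_term_eq M hs n
  exact Complex.summable_ofReal.mp h2

/-- For real `s > 1` the Dedekind zeta function is the real Dirichlet series. -/
theorem wcp_dedekindZeta_eq {s : ℝ} (hs : 1 < s) :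
    dedekindZeta M (s : ℂ) = ((∑' n : ℕ, (wc_a M n : ℝ) * (n : ℝ) ^ (-s) : ℝ) : ℂ) := by
  rw [Complex.ofReal_tsum]
  unfold dedekindZeta LSeries
  refine tsum_congr fun n => ?_
  rw [← wcp_term_eq M hs n]
  simp [wc_a]

/-- `(s - 1) ζ_M(s) → ρ_M` for the real Dirichlet series. -/
theorem wcp_tendsto :
    Tendsto (fun s : ℝ => (s - 1) * ∑' n : ℕ, (wc_a M n : ℝ) * (n : ℝ) ^ (-s)) (𝓝[>] 1)
      (𝓝 (dedekindZeta_residue M)) := by
  have h := tendsto_sub_one_mul_dedekindZeta_nhdsGT M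
  have h1 : Tendsto (fun s : ℝ =>
      (((s - 1) * ∑' n : ℕ, (wc_a M n : ℝ) * (n : ℝ) ^ (-s) : ℝ) : ℂ)) (𝓝[>] 1)
      (𝓝 ((dedekindZeta_residue M : ℝ) : ℂ)) := by
    refine h.congr' ?_
    filter_upwards [self_mem_nhdsWithin] with s hs
    rw [wcp_dedekindZeta_eq M hs]
    push_cast
    ring
  exact ((Complex.continuous_re.tendsto _).comp h1).congr (fun s => by simp)

/-- **(A3b)** `log ζ_M(s) = log (1 / (s - 1)) + O(1)` as `s → 1⁺`. -/
theorem wcp_mass_log_zeta :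
    wc_Mass (fun s => Real.log (∑' n : ℕ, (wc_a M n : ℝ) * (n : ℝ) ^ (-s))) 1 := by
  have hρ := dedekindZeta_residue_pos M
  have h := wcp_tendsto M
  have h1 : Tendsto (fun s : ℝ =>
      Real.log ((s - 1) * ∑' n : ℕ, (wc_a M n : ℝ) * (n : ℝ) ^ (-s))) (𝓝[>] 1)
      (𝓝 (Real.log (dedekindZeta_residue M))) :=
    (Real.continuousAt_log hρ.ne').tendsto.comp h
  have h2 : ∀ᶠ s in 𝓝[>] (1 : ℝ), 0 < (s - 1) * ∑' n : ℕ, (wc_a M n : ℝ) * (n : ℝ) ^ (-s) :=
    h.eventually (lt_mem_nhds hρ)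
  have h3 : ∀ᶠ s in 𝓝[>] (1 : ℝ),
      |Real.log ((s - 1) * ∑' n : ℕ, (wc_a M n : ℝ) * (n : ℝ) ^ (-s)) -
        Real.log (dedekindZeta_residue M)| < 1 := by
    have := (tendsto_order.1 (tendsto_sub_nhds_zero_iff.mpr h1))
    filter_upwards [this.1 (-1) (by norm_num), this.2 1 (by norm_num)] with s hs1 hs2
    rw [abs_lt]
    exact ⟨hs1, hs2⟩
  refine ⟨|Real.log (dedekindZeta_residue M)| + 1, ?_⟩
  filter_upwards [h2, h3, self_mem_nhdsWithin] with s hpos hlt hs1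
  have hs1 : (1 : ℝ) < s := hs1
  have hs0 : 0 < s - 1 := by linarith
  set L := ∑' n : ℕ, (wc_a M n : ℝ) * (n : ℝ) ^ (-s) with hLdef
  have hL : 0 < L := by
    by_contra hcon
    have hcon := not_lt.mp hcon
    have : (s - 1) * L ≤ 0 := mul_nonpos_of_nonneg_of_nonpos hs0.le hcon
    linarith
  have e1 : Real.log ((s - 1) * L) = Real.log L - 1 * wc_m s := by
    rw [Real.log_mul hs0.ne' hL.ne', wc_m, one_div, Real.log_inv]
    ring
  rw [e1] at hlt
  have := abs_sub_abs_le_abs_sub (Real.log L - 1 * wc_m s) (Real.log (dedekindZeta_residue M))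
  linarith

/-- The (A1) package, in the form consumed by the Euler-product lemma (A2). -/
theorem wcp_mult (h1 : wc_a M 1 = 1)
    (hmul : ∀ {m n : ℕ}, Nat.Coprime m n → wc_a M (m * n) = wc_a M m * wc_a M n)
    (hpp : ∀ {p : ℕ}, p.Prime → ∀ e : ℕ, wc_a M (p ^ e) ≤ (e + 1) ^ Module.finrank ℚ M) :
    wc_le_Mult (fun n => (wc_a M n : ℝ)) (Module.finrank ℚ M) where
  one := by simp [h1]
  nonneg n := Nat.cast_nonneg _
  mul hmn := by
    show ((wc_a M _ : ℕ) : ℝ) = _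
    rw [hmul hmn, Nat.cast_mul]
  bound p e hp := by
    have := hpp hp e
    calc ((wc_a M (p ^ e) : ℕ) : ℝ) ≤ (((e + 1) ^ Module.finrank ℚ M : ℕ) : ℝ) := by
          exact_mod_cast this
      _ = ((e : ℝ) + 1) ^ Module.finrank ℚ M := by push_cast; ring

/-- **(A)** `∑_p a_M(p) p^{-s} = log (1 / (s - 1)) + O(1)`, given the (A1) package. -/
theorem wc_mass_a_of (h1 : wc_a M 1 = 1)
    (hmul : ∀ {m n : ℕ}, Nat.Coprime m n → wc_a M (m * n) = wc_a M m * wc_a M n)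
    (hpp : ∀ {p : ℕ}, p.Prime → ∀ e : ℕ, wc_a M (p ^ e) ≤ (e + 1) ^ Module.finrank ℚ M) :
    wc_Mass (wc_P (fun p => (wc_a M p : ℝ))) 1 := by
  have hM := wcp_mult M h1 hmul hpp
  obtain ⟨C, hC⟩ := wcp_mass_log_zeta M
  refine ⟨C + wc_le_C (Module.finrank ℚ M), ?_⟩
  filter_upwards [hC, self_mem_nhdsWithin] with s hs hs1
  have hs1 : (1 : ℝ) < s := hs1
  obtain ⟨-, h2⟩ := wc_le_main hM hs1
  have e0 : wc_le_P (fun n => (wc_a M n : ℝ)) s = wc_P (fun p => (wc_a M p : ℝ)) s := rfl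
  have e1 : wc_le_L (fun n => (wc_a M n : ℝ)) s = ∑' n : ℕ, (wc_a M n : ℝ) * (n : ℝ) ^ (-s) := rfl
  rw [e0, e1] at h2
  have e : wc_P (fun p => (wc_a M p : ℝ)) s - 1 * wc_m s =
      -(Real.log (∑' n : ℕ, (wc_a M n : ℝ) * (n : ℝ) ^ (-s)) -
          wc_P (fun p => (wc_a M p : ℝ)) s) +
      (Real.log (∑' n : ℕ, (wc_a M n : ℝ) * (n : ℝ) ^ (-s)) - 1 * wc_m s) := by ring
  rw [e]
  refine (abs_add_le _ _).trans ?_
  rw [abs_neg]
  linarith

/-- **(A) MAIN** `∑_p a_M(p) p^{-s} = log (1 / (s - 1)) + O(1)` as `s → 1⁺`. -/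
theorem wc_mass_a : wc_Mass (wc_P (fun p => (wc_a M p : ℝ))) 1 :=
  wc_mass_a_of M (wci_a_one M) (fun h => wci_a_mul M h) (fun hp e => wci_a_prime_pow_le M hp e)

end

end Fermat.Agent.WC
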