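/-
(WC) weak Chebotarev, leaf (C): Moebius inversion on a finite cyclic group by strong induction.
If for every `d ∣ n = orderOf σ` the elements `c ∈ ⟨σ⟩` with `orderOf c ∣ d` carry the mass `d`, then
the elements of exact order `d` carry the mass `φ(d)`; in particular some generator of `⟨σ⟩` has a
non-zero weight at some prime.
Owner: helper19.  Prefix `wcm_`.
-/
import Fermat.Agent.WC.Mass

set_option autoImplicit false
set_option linter.style.haveILetI false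

open NumberField Filter Topology

namespace Fermat.Agent.WC

section

variable {G : Type*} [Group G] [Fintype G] (σ : G) (w : ℕ → G → ℝ)

open Classical in
/-- the elements of `⟨σ⟩` -/
noncomputable def wcm_Z : Finset G := Finset.univ.filter (fun c => c ∈ Subgroup.zpowers σ)

/-- the total weight at `ℓ` of the elements of `⟨σ⟩` of order dividing `d` -/
noncomputable def wcm_F (d : ℕ) (ℓ : ℕ) : ℝ := ∑ c ∈ (wcm_Z σ).filter (fun c => orderOf c ∣ d), w ℓ c

/-- the total weight at `ℓ` of the elements of `⟨σ⟩` of exact order `d` -/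
noncomputable def wcm_G (d : ℕ) (ℓ : ℕ) : ℝ := ∑ c ∈ (wcm_Z σ).filter (fun c => orderOf c = d), w ℓ c

theorem wcm_F_eq_sum {d : ℕ} (hd : d ≠ 0) (ℓ : ℕ) :
    wcm_F σ w d ℓ = ∑ d' ∈ d.divisors, wcm_G σ w d' ℓ := by
  unfold wcm_F wcm_G
  rw [← Finset.sum_fiberwise_of_maps_to (s := (wcm_Z σ).filter (fun c => orderOf c ∣ d))
    (t := d.divisors) (g := fun c => orderOf c)]
  · refine Finset.sum_congr rfl fun d' hd' => ?_
    refine Finset.sum_congr ?_ fun _ _ => rfl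
    ext c
    simp only [Finset.mem_filter]
    constructor
    · rintro ⟨⟨h1, _⟩, h3⟩
      exact ⟨h1, h3⟩
    · rintro ⟨h1, h3⟩
      exact ⟨⟨h1, h3 ▸ (Nat.mem_divisors.1 hd').1⟩, h3⟩
  · intro c hc
    rw [Finset.mem_filter] at hc
    exact Nat.mem_divisors.2 ⟨hc.2, hd⟩

variable {w}

theorem wcm_abs_G_le {B : ℝ} (hw0 : ∀ ℓ c, 0 ≤ w ℓ c) (hwB : ∀ ℓ c, w ℓ c ≤ B) (d ℓ : ℕ) :
    |wcm_G σ w d ℓ| ≤ Fintype.card G * B := by
  have hB : 0 ≤ B := (hw0 0 1).trans (hwB 0 1)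
  unfold wcm_G
  rw [abs_of_nonneg (Finset.sum_nonneg fun c _ => hw0 ℓ c)]
  calc ∑ c ∈ (wcm_Z σ).filter (fun c => orderOf c = d), w ℓ c
      ≤ ∑ _c ∈ (wcm_Z σ).filter (fun c => orderOf c = d), B := Finset.sum_le_sum fun c _ => hwB ℓ c
    _ = ((wcm_Z σ).filter (fun c => orderOf c = d)).card * B := by
        rw [Finset.sum_const, nsmul_eq_mul]
    _ ≤ Fintype.card G * B := by
        refine mul_le_mul_of_nonneg_right ?_ hB
        exact_mod_cast Finset.card_le_univ _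

theorem wcm_abs_F_le {B : ℝ} (hw0 : ∀ ℓ c, 0 ≤ w ℓ c) (hwB : ∀ ℓ c, w ℓ c ≤ B) (d ℓ : ℕ) :
    |wcm_F σ w d ℓ| ≤ Fintype.card G * B := by
  have hB : 0 ≤ B := (hw0 0 1).trans (hwB 0 1)
  unfold wcm_F
  rw [abs_of_nonneg (Finset.sum_nonneg fun c _ => hw0 ℓ c)]
  calc ∑ c ∈ (wcm_Z σ).filter (fun c => orderOf c ∣ d), w ℓ c
      ≤ ∑ _c ∈ (wcm_Z σ).filter (fun c => orderOf c ∣ d), B := Finset.sum_le_sum fun c _ => hwB ℓ c
    _ = ((wcm_Z σ).filter (fun c => orderOf c ∣ d)).card * B := by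
        rw [Finset.sum_const, nsmul_eq_mul]
    _ ≤ Fintype.card G * B := by
        refine mul_le_mul_of_nonneg_right ?_ hB
        exact_mod_cast Finset.card_le_univ _

/-- **Moebius inversion by strong induction**: the elements of exact order `d` carry the mass
`φ(d)`. -/
theorem wcm_mass_G {B : ℝ} (hw0 : ∀ ℓ c, 0 ≤ w ℓ c) (hwB : ∀ ℓ c, w ℓ c ≤ B)
    (h : ∀ d : ℕ, d ∣ orderOf σ → wc_Mass (wc_P (wcm_F σ w d)) d) :
    ∀ d : ℕ, d ∣ orderOf σ → wc_Mass (wc_P (wcm_G σ w d)) (Nat.totient d) := by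
  intro d
  induction d using Nat.strong_induction_on with
  | _ d ih =>
    intro hd
    have hd0 : d ≠ 0 := fun h0 => (orderOf_pos σ).ne' (Nat.eq_zero_of_zero_dvd (h0 ▸ hd))
    -- `G_d = F_d - ∑_{d' proper} G_{d'}` coefficientwise
    have hcoef : ∀ ℓ, wcm_G σ w d ℓ =
        wcm_F σ w d ℓ - ∑ d' ∈ d.properDivisors, wcm_G σ w d' ℓ := by
      intro ℓ
      rw [wcm_F_eq_sum σ w hd0, ← Nat.cons_self_properDivisors hd0, Finset.sum_cons]
      ring
    have hsumB : ∀ ℓ, |∑ d' ∈ d.properDivisors, wcm_G σ w d' ℓ| ≤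
        d.properDivisors.card * (Fintype.card G * B) := by
      intro ℓ
      refine (Finset.abs_sum_le_sum_abs _ _).trans ?_
      calc ∑ d' ∈ d.properDivisors, |wcm_G σ w d' ℓ|
          ≤ ∑ _d' ∈ d.properDivisors, (Fintype.card G * B) :=
            Finset.sum_le_sum fun d' _ => wcm_abs_G_le σ hw0 hwB d' ℓ
        _ = d.properDivisors.card * (Fintype.card G * B) := by
            rw [Finset.sum_const, nsmul_eq_mul]
    -- the masses
    have h1 := h d hd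
    have h2 : wc_Mass (fun s => ∑ d' ∈ d.properDivisors, wc_P (wcm_G σ w d') s)
        (∑ d' ∈ d.properDivisors, (Nat.totient d' : ℝ)) := by
      refine wc_Mass.sum _ _ _ (fun d' hd' => ?_)
      rw [Nat.mem_properDivisors] at hd'
      exact ih d' hd'.2 (hd'.1.trans hd)
    have h3 := h1.sub h2
    refine (h3.congr' (fun s hs => ?_)).congr_coeff ?_
    · rw [← wc_P_sum _ _ (fun d' ℓ _ => wcm_abs_G_le σ hw0 hwB d' ℓ) hs,
        ← wc_P_sub (fun ℓ _ => wcm_abs_F_le σ hw0 hwB d ℓ) (fun ℓ _ => hsumB ℓ) hs]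
      unfold wc_P
      refine tsum_congr fun p => ?_
      rw [hcoef]
    · have h4 := Nat.sum_totient d
      rw [← Nat.cons_self_properDivisors hd0, Finset.sum_cons] at h4
      have h5 : (d : ℝ) = (Nat.totient d : ℝ) + ∑ d' ∈ d.properDivisors, (Nat.totient d' : ℝ) := by
        exact_mod_cast h4.symm
      rw [h5]
      ring

end

/-- **(C)**: if for every `d ∣ orderOf σ` the elements `c ∈ ⟨σ⟩` with `orderOf c ∣ d` carry the
mass `d`, then some generator of `⟨σ⟩` has a non-zero weight at some prime. -/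
theorem wcm_exists {G : Type*} [Group G] [Finite G] (σ : G) (w : ℕ → G → ℝ)
    (hw0 : ∀ ℓ c, 0 ≤ w ℓ c) (hwB : ∃ B : ℝ, ∀ ℓ c, w ℓ c ≤ B)
    (h : ∀ d : ℕ, d ∣ orderOf σ →
      wc_Mass (wc_P (fun ℓ =>
        ∑ᶠ c : {c : G // c ∈ Subgroup.zpowers σ ∧ orderOf c ∣ d}, w ℓ c)) d) :
    ∃ (ℓ : ℕ) (c : G), ℓ.Prime ∧ c ∈ Subgroup.zpowers σ ∧ orderOf c = orderOf σ ∧ w ℓ c ≠ 0 := by
  classical
  haveI : Fintype G := Fintype.ofFinite G
  obtain ⟨B, hB⟩ := hwB
  have hF : ∀ d ℓ, (∑ᶠ c : {c : G // c ∈ Subgroup.zpowers σ ∧ orderOf c ∣ d}, w ℓ c) =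
      wcm_F σ w d ℓ := by
    intro d ℓ
    rw [finsum_eq_sum_of_fintype]
    unfold wcm_F
    refine (Finset.sum_subtype _ (fun c => ?_) _).symm
    unfold wcm_Z
    simp only [Finset.mem_filter, Finset.mem_univ, true_and]
  have h' : ∀ d : ℕ, d ∣ orderOf σ → wc_Mass (wc_P (wcm_F σ w d)) d := by
    intro d hd
    have := h d hd
    simpa only [hF] using this
  have hn := wcm_mass_G σ hw0 hB h' (orderOf σ) dvd_rfl
  have hpos : (0 : ℝ) < (Nat.totient (orderOf σ) : ℝ) := by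
    exact_mod_cast Nat.totient_pos.2 (orderOf_pos σ)
  obtain ⟨s, _, hs⟩ := hn.exists_pos hpos
  obtain ⟨ℓ, hℓ, hne⟩ := wc_P_exists_ne_zero hs.ne'
  unfold wcm_G at hne
  obtain ⟨c, hc, hwc⟩ := Finset.exists_ne_zero_of_sum_ne_zero hne
  rw [Finset.mem_filter] at hc
  refine ⟨ℓ, c, hℓ, ?_, hc.2, hwc⟩
  have := hc.1
  unfold wcm_Z at this
  simpa using this

end Fermat.Agent.WC
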