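/-
(WC) leaf (D): weak Chebotarev for an abstract Galois number field `L / ℚ`:
for every `σ ∈ Gal(L/ℚ)` and every finite set `S` of primes there is a prime `ℓ ∉ S`, unramified
in `L`, and a prime `P ∣ ℓ` of `L` whose Frobenius element `φ` generates `⟨σ⟩` (`σ ∈ ⟨φ⟩`).

`wc_nf_of` : the statement with the inputs (A) (= `wc_mass_a` for the fixed fields) and
             (B) (= `wcb_finite_ram`, `wcb_N_le`, `wcb_count`) as hypotheses.
Owner: helper19.  Prefix `wcn_` for the auxiliary lemmas.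
-/
import Fermat.Agent.WC.Moebius
import Fermat.Agent.WC.PoleLog
import Fermat.Agent.WC.FrobBasic

set_option autoImplicit false

open NumberField Filter Topology

namespace Fermat.Agent.WC

section group

variable {G : Type*} [Group G] [Finite G]

/-- The order of `σ ^ (n / d)` for `d ∣ n = orderOf σ`. -/
theorem wcn_orderOf_pow (σ : G) {d : ℕ} (hd : d ∣ orderOf σ) :
    orderOf (σ ^ (orderOf σ / d)) = d := by
  have hn : 0 < orderOf σ := orderOf_pos σ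
  obtain ⟨e, he⟩ := hd
  have hd0 : 0 < d := Nat.pos_of_ne_zero (fun h => by rw [h, zero_mul] at he; omega)
  have he0 : 0 < e := Nat.pos_of_ne_zero (fun h => by rw [h, mul_zero] at he; omega)
  have h1 : orderOf σ / d = e := by rw [he]; exact Nat.mul_div_cancel_left e hd0
  rw [h1, orderOf_pow_of_dvd he0.ne' ⟨d, by rw [he]; ring⟩, he]
  exact Nat.mul_div_cancel d he0

/-- The subgroup of `⟨σ⟩` of order `d`. -/
theorem wcn_mem_zpowers_pow_iff (σ : G) {d : ℕ} (hd : d ∣ orderOf σ) (c : G) :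
    c ∈ Subgroup.zpowers (σ ^ (orderOf σ / d)) ↔
      c ∈ Subgroup.zpowers σ ∧ orderOf c ∣ d := by
  constructor
  · intro hc
    refine ⟨?_, ?_⟩
    · have : Subgroup.zpowers (σ ^ (orderOf σ / d)) ≤ Subgroup.zpowers σ :=
        Subgroup.zpowers_le.2 (Subgroup.pow_mem _ (Subgroup.mem_zpowers σ) _)
      exact this hc
    · have := orderOf_dvd_of_mem_zpowers hc
      rwa [wcn_orderOf_pow σ hd] at this
  · rintro ⟨hc, hcd⟩
    have hn : 0 < orderOf σ := orderOf_pos σ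
    obtain ⟨e, he⟩ := hd
    have hd0 : 0 < d := Nat.pos_of_ne_zero (fun h => by rw [h, zero_mul] at he; omega)
    have h1 : orderOf σ / d = e := by rw [he]; exact Nat.mul_div_cancel_left e hd0
    rw [← mem_powers_iff_mem_zpowers] at hc
    obtain ⟨k, rfl⟩ := Submonoid.mem_powers_iff _ _ |>.1 hc
    have h2 : (σ ^ k) ^ d = 1 := orderOf_dvd_iff_pow_eq_one.1 hcd
    rw [← pow_mul] at h2
    have h3 : orderOf σ ∣ k * d := orderOf_dvd_of_pow_eq_one h2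
    rw [he, mul_comm d e] at h3
    have h4 : e ∣ k := Nat.dvd_of_mul_dvd_mul_right hd0 h3
    obtain ⟨m, rfl⟩ := h4
    rw [h1, pow_mul]
    exact Subgroup.pow_mem _ (Subgroup.mem_zpowers _) _

theorem wcn_card_zpowers_pow (σ : G) {d : ℕ} (hd : d ∣ orderOf σ) :
    Nat.card ↥(Subgroup.zpowers (σ ^ (orderOf σ / d))) = d := by
  rw [Nat.card_zpowers, wcn_orderOf_pow σ hd]

omit [Group G] [Finite G] in
/-- Reindexing a `finsum` over a subtype along a pointwise equivalence of the predicates. -/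
theorem wcn_finsum_subtype_congr {p q : G → Prop} (h : ∀ c, p c ↔ q c) (f : G → ℝ) :
    ∑ᶠ c : {c : G // p c}, f c = ∑ᶠ c : {c : G // q c}, f c := by
  have : p = q := funext fun c => propext (h c)
  subst this
  rfl

/-- An element of `⟨σ⟩` of the same order generates `⟨σ⟩`. -/
theorem wcn_mem_zpowers_of_orderOf_eq {σ c : G} (hc : c ∈ Subgroup.zpowers σ)
    (ho : orderOf c = orderOf σ) : σ ∈ Subgroup.zpowers c := by
  have hle : Subgroup.zpowers c ≤ Subgroup.zpowers σ := Subgroup.zpowers_le.2 hc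
  have hcard : Nat.card ↥(Subgroup.zpowers σ) ≤ Nat.card ↥(Subgroup.zpowers c) := by
    rw [Nat.card_zpowers, Nat.card_zpowers, ho]
  have := Subgroup.eq_of_le_of_card_ge hle hcard
  rw [this]
  exact Subgroup.mem_zpowers σ

end group

section main

variable (L : Type*) [Field L] [NumberField L] [IsGalois ℚ L]

omit [IsGalois ℚ L] in
/-- Weak Chebotarev for `L / ℚ` from the inputs (A) and (B). -/
theorem wc_nf_of
    (hA : ∀ H : Subgroup (L ≃ₐ[ℚ] L),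
      wc_Mass (wc_P (fun p => (wc_a ↥(IntermediateField.fixedField H) p : ℝ))) 1)
    (hA' : ∀ H : Subgroup (L ≃ₐ[ℚ] L), ∃ B : ℝ, ∀ p : ℕ, p.Prime →
      (wc_a ↥(IntermediateField.fixedField H) p : ℝ) ≤ B)
    (hB1 : {ℓ : ℕ | ℓ.Prime ∧ ¬ wc_Unram L ℓ}.Finite)
    (hB2 : ∀ ℓ : ℕ, ℓ.Prime → ∀ c : L ≃ₐ[ℚ] L, wc_N L ℓ c ≤ Module.finrank ℚ L)
    (hB3 : ∀ ℓ : ℕ, ℓ.Prime → wc_Unram L ℓ → ∀ H : Subgroup (L ≃ₐ[ℚ] L),
      ∑ᶠ c : ↥H, orderOf (c : L ≃ₐ[ℚ] L) * wc_N L ℓ (c : L ≃ₐ[ℚ] L) =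
        Nat.card ↥H * wc_a ↥(IntermediateField.fixedField H) ℓ)
    (S : Finset ℕ) (σ : L ≃ₐ[ℚ] L) :
    ∃ (ℓ : ℕ) (P : Ideal (𝓞 L)) (φ : L ≃ₐ[ℚ] L), ℓ.Prime ∧ ℓ ∉ S ∧ wc_Unram L ℓ ∧ P.IsPrime ∧
      (ℓ : 𝓞 L) ∈ P ∧ wc_IsFrob φ P ℓ ∧ σ ∈ Subgroup.zpowers φ := by
  classical
  -- the good primes and the weights
  set good : ℕ → Prop := fun ℓ => ℓ.Prime ∧ ℓ ∉ S ∧ wc_Unram L ℓ with hgood
  set w : ℕ → (L ≃ₐ[ℚ] L) → ℝ := fun ℓ c =>
    if good ℓ then ((orderOf c * wc_N L ℓ c : ℕ) : ℝ) else 0 with hw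
  have hbad : {ℓ : ℕ | ℓ.Prime ∧ ¬ good ℓ}.Finite := by
    refine ((S.finite_toSet).union hB1).subset ?_
    rintro ℓ ⟨hℓ, hng⟩
    by_cases hS : ℓ ∈ S
    · exact Or.inl hS
    · refine Or.inr ⟨hℓ, fun hu => hng ⟨hℓ, hS, hu⟩⟩
  have hw0 : ∀ ℓ c, 0 ≤ w ℓ c := by
    intro ℓ c
    simp only [hw]
    split_ifs
    · exact Nat.cast_nonneg _
    · exact le_rfl
  -- on primes the weights are bounded
  have hwB : ∃ B : ℝ, ∀ ℓ c, w ℓ c ≤ B := by
    refine ⟨((Nat.card (L ≃ₐ[ℚ] L) * Module.finrank ℚ L : ℕ) : ℝ), fun ℓ c => ?_⟩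
    simp only [hw]
    split_ifs with hgd
    · exact Nat.cast_le.2 (Nat.mul_le_mul (orderOf_le_card) (hB2 ℓ hgd.1 c))
    · exact Nat.cast_nonneg _
  -- the masses
  have hmass : ∀ d : ℕ, d ∣ orderOf σ →
      wc_Mass (wc_P (fun ℓ =>
        ∑ᶠ c : {c : L ≃ₐ[ℚ] L // c ∈ Subgroup.zpowers σ ∧ orderOf c ∣ d}, w ℓ c)) d := by
    intro d hd
    set H : Subgroup (L ≃ₐ[ℚ] L) := Subgroup.zpowers (σ ^ (orderOf σ / d)) with hH
    have hcard : Nat.card ↥H = d := wcn_card_zpowers_pow σ hd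
    obtain ⟨B, hB⟩ := hA' H
    set a : ℕ → ℝ := fun p => (wc_a ↥(IntermediateField.fixedField H) p : ℝ) with ha
    set g : ℕ → ℝ := fun ℓ => if ℓ.Prime ∧ ¬ good ℓ then (d : ℝ) * a ℓ else 0 with hg
    have hgfin : {p : ℕ | g p ≠ 0}.Finite := by
      refine hbad.subset ?_
      intro ℓ hℓ
      by_contra hcon
      apply hℓ
      have hcon' : ¬ (ℓ.Prime ∧ ¬ good ℓ) := hcon
      simp only [hg]
      rw [if_neg hcon']
    have hcoef : ∀ ℓ : ℕ, ℓ.Prime →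
        (∑ᶠ c : {c : L ≃ₐ[ℚ] L // c ∈ Subgroup.zpowers σ ∧ orderOf c ∣ d}, w ℓ c) =
          (d : ℝ) * a ℓ - g ℓ := by
      intro ℓ hℓ
      rw [← wcn_finsum_subtype_congr (fun c => wcn_mem_zpowers_pow_iff σ hd c) (w ℓ)]
      by_cases hgd : good ℓ
      · have h1 : g ℓ = 0 := by
          simp only [hg]
          rw [if_neg (fun h => h.2 hgd)]
        rw [h1, sub_zero]
        have h2 : ∀ c : {c : L ≃ₐ[ℚ] L // c ∈ Subgroup.zpowers (σ ^ (orderOf σ / d))},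
            w ℓ c = ((orderOf (c : L ≃ₐ[ℚ] L) * wc_N L ℓ (c : L ≃ₐ[ℚ] L) : ℕ) : ℝ) := by
          intro c
          simp only [hw]
          rw [if_pos hgd]
        rw [finsum_congr h2]
        have h3 := hB3 ℓ hℓ hgd.2.2 H
        rw [hcard] at h3
        have h4 : ((∑ᶠ c : ↥H, orderOf (c : L ≃ₐ[ℚ] L) * wc_N L ℓ (c : L ≃ₐ[ℚ] L) : ℕ) : ℝ) =
            (d : ℝ) * a ℓ := by
          rw [h3]
          push_cast
          rfl
        rw [← h4]
        exact (map_finsum (Nat.castAddMonoidHom ℝ) (Set.toFinite _)).symm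
      · have h1 : g ℓ = (d : ℝ) * a ℓ := by
          simp only [hg]
          rw [if_pos ⟨hℓ, hgd⟩]
        rw [h1, sub_self]
        have h2 : ∀ c : {c : L ≃ₐ[ℚ] L // c ∈ Subgroup.zpowers (σ ^ (orderOf σ / d))},
            w ℓ c = 0 := by
          intro c
          simp only [hw]
          rw [if_neg hgd]
        rw [finsum_congr h2, finsum_zero]
    have hda : ∀ p : ℕ, p.Prime → |(d : ℝ) * a p| ≤ (d : ℝ) * B := by
      intro p hp
      have h0 : (0 : ℝ) ≤ a p := Nat.cast_nonneg _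
      rw [abs_of_nonneg (mul_nonneg (Nat.cast_nonneg _) h0)]
      exact mul_le_mul_of_nonneg_left (hB p hp) (Nat.cast_nonneg _)
    have hgB : ∀ p : ℕ, p.Prime → |g p| ≤ (d : ℝ) * B := by
      intro p hp
      simp only [hg]
      split_ifs
      · exact hda p hp
      · rw [abs_zero]
        have h0 : (0 : ℝ) ≤ a p := Nat.cast_nonneg _
        exact mul_nonneg (Nat.cast_nonneg _) (h0.trans (hB p hp))
    have hm1 : wc_Mass (fun s => (d : ℝ) * wc_P a s - wc_P g s) ((d : ℝ) * 1 - 0) :=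
      ((hA H).const_mul (d : ℝ)).sub (wc_Mass_P_of_finite hgfin)
    refine (hm1.congr' (fun s hs => ?_)).congr_coeff (by ring)
    rw [wc_P_congr hcoef s, wc_P_sub hda hgB hs, wc_P_const_mul]
  obtain ⟨ℓ, c, hℓ, hcσ, hco, hne⟩ := wcm_exists σ w hw0 hwB hmass
  have hgd : good ℓ := by
    by_contra hcon
    apply hne
    simp only [hw]
    rw [if_neg hcon]
  have hN : wc_N L ℓ c ≠ 0 := by
    intro h0
    apply hne
    simp only [hw]
    rw [if_pos hgd, h0, mul_zero, Nat.cast_zero]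
  have hne' : Nonempty {P : Ideal (𝓞 L) // P.IsPrime ∧ (ℓ : 𝓞 L) ∈ P ∧ wc_IsFrob c P ℓ} := by
    by_contra hcon
    rw [not_nonempty_iff] at hcon
    exact hN Nat.card_of_isEmpty
  obtain ⟨P, hP1, hP2, hP3⟩ := hne'
  exact ⟨ℓ, P, c, hℓ, hgd.2.1, hgd.2.2, hP1, hP2, hP3, wcn_mem_zpowers_of_orderOf_eq hcσ hco⟩

omit [IsGalois ℚ L] in
/-- Weak Chebotarev for `L / ℚ` from the counting identity `wcb_count` alone
(the inputs (A), `wcb_finite_ram`, `wcb_N_le` are theorems). -/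
theorem wc_nf_of_count
    (hB3 : ∀ ℓ : ℕ, ℓ.Prime → wc_Unram L ℓ → ∀ H : Subgroup (L ≃ₐ[ℚ] L),
      ∑ᶠ c : ↥H, orderOf (c : L ≃ₐ[ℚ] L) * wc_N L ℓ (c : L ≃ₐ[ℚ] L) =
        Nat.card ↥H * wc_a ↥(IntermediateField.fixedField H) ℓ)
    (S : Finset ℕ) (σ : L ≃ₐ[ℚ] L) :
    ∃ (ℓ : ℕ) (P : Ideal (𝓞 L)) (φ : L ≃ₐ[ℚ] L), ℓ.Prime ∧ ℓ ∉ S ∧ wc_Unram L ℓ ∧ P.IsPrime ∧
      (ℓ : 𝓞 L) ∈ P ∧ wc_IsFrob φ P ℓ ∧ σ ∈ Subgroup.zpowers φ := by
  refine wc_nf_of L (fun H => wc_mass_a _) (fun H => ?_) (wcb_finite_ram L)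
    (fun ℓ hℓ c => wcb_N_le L hℓ c) hB3 S σ
  refine ⟨((2 ^ Module.finrank ℚ ↥(IntermediateField.fixedField H) : ℕ) : ℝ), fun p hp => ?_⟩
  have := wci_a_prime_pow_le ↥(IntermediateField.fixedField H) hp 1
  rw [pow_one] at this
  exact_mod_cast this

end main

end Fermat.Agent.WC
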