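/-
(WC) weak Chebotarev: the final statements.
* `wc_nf`     : for a Galois number field `L / ℚ`, a finite set `S` of primes and `σ ∈ Gal(L/ℚ)`,
                there are a prime `ℓ ∉ S` unramified in `L`, a prime `P ∣ ℓ` of `L` and a Frobenius
                element `φ` at `P` with `σ ∈ ⟨φ⟩`;
* `wc_nf_NF`  : the same as the hypothesis `wcf_NF` of `WC/Main.lean`;
* `wc_main`   : in the language of the prelude: for every finite normal `L ⊆ Q̄`, every finite `S`
                and every `σ ∈ Gal(Q̄/ℚ)` there are `ℓ ∉ S`, a valuation subring `A` of `Q̄` over `ℓ`,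
                a Frobenius element `φ` at `A` and `k` with `φ ^ k = σ` on `L`.
Assembly of: WC/Mass, WC/Moebius, WC/NumberField (helper19), WC/IdealCount, WC/FrobBasic,
WC/FixedPrimes (helper28), WC/EulerLog (helper5), WC/Analytic/LogEuler, WC/PoleLog (helper17),
WC/FrobCount (helper13), WC/FrobDecomp (helper23), WC/Main (helper9).
Owner: helper19.
-/
import Fermat.Agent.WC.NumberField
import Fermat.Agent.WC.FrobCount
import Fermat.Agent.WC.Main

set_option autoImplicit false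

open NumberField

namespace Fermat.Agent.WC

local notation "Qbar" => AlgebraicClosure ℚ

/-- **Weak Chebotarev** for an abstract Galois number field. -/
theorem wc_nf (L : Type*) [Field L] [NumberField L] [IsGalois ℚ L] (S : Finset ℕ)
    (σ : L ≃ₐ[ℚ] L) :
    ∃ (ℓ : ℕ) (P : Ideal (𝓞 L)) (φ : L ≃ₐ[ℚ] L), ℓ.Prime ∧ ℓ ∉ S ∧ wc_Unram L ℓ ∧ P.IsPrime ∧
      (ℓ : 𝓞 L) ∈ P ∧ wc_IsFrob φ P ℓ ∧ σ ∈ Subgroup.zpowers φ :=
  wc_nf_of_count L (fun _ hℓ hu H => wcb_count L hℓ hu H) S σ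

/-- The hypothesis `wcf_NF` of `WC/Main.lean` holds. -/
theorem wc_nf_NF : wcf_NF := fun L _ _ _ S σ => wc_nf L S σ

/-- **Weak Chebotarev** in the language of the prelude: every element of `Gal(Q̄/ℚ)` agrees on
every finite normal `L` with a power of a Frobenius element at a prime outside `S`. -/
theorem wc_main (L : IntermediateField ℚ Qbar) [FiniteDimensional ℚ L] [Normal ℚ L]
    (S : Finset ℕ) (σ : Qbar ≃ₐ[ℚ] Qbar) :
    ∃ (ℓ : ℕ) (A : ValuationSubring Qbar) (φ : Qbar ≃ₐ[ℚ] Qbar) (k : ℕ), ℓ.Prime ∧ ℓ ∉ S ∧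
      A.LiesOverPrime ℓ ∧ A.IsFrobeniusAt φ ℓ ∧ ∀ x ∈ L, (φ ^ k) x = σ x :=
  wcf_main wc_nf_NF L S σ

end Fermat.Agent.WC
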