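/-
(WC) weak Chebotarev, leaf (B-beta) of helper19's cut of `wcb_count`: primes of `𝓞 L` over primes of
the ring of integers of the fixed field `M = L^H` of a subgroup `H ≤ Gal(L/ℚ)`.
* `wcx_absNorm_under` : if the Frobenius element of `P` lies in `H`, then `P ∩ 𝓞 M` has norm `ℓ`;
* `wcx_exists_over`   : every ideal of norm `ℓ` of `𝓞 M` lies under a prime `P` of `𝓞 L` over `ℓ`
                        with a Frobenius element in `H`;
* `wcx_exists_smul`   : primes of `𝓞 L` with the same contraction to `𝓞 M` are `H`-conjugate;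
* `wcx_under_smul`    : `H`-conjugate ideals have the same contraction.
Prefix `wcx_`.
-/
import Fermat.Agent.WC.FrobBasic

set_option autoImplicit false
set_option linter.unusedSectionVars false
set_option linter.style.haveILetI false

open NumberField Pointwise Polynomial

namespace Fermat.Agent.WC

variable (L : Type*) [Field L] [NumberField L] [IsGalois ℚ L] (H : Subgroup (L ≃ₐ[ℚ] L))

/-- `H` is the Galois group of `L` over its fixed field -/
theorem wcx_gal_field : IsGaloisGroup ↥H ↥(IntermediateField.fixedField H) L :=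
  IsGaloisGroup.subgroup (L ≃ₐ[ℚ] L) ℚ L H

/-- `H` is the Galois group of `𝓞 L` over the ring of integers of the fixed field -/
theorem wcx_gal_int : IsGaloisGroup ↥H (𝓞 ↥(IntermediateField.fixedField H)) (𝓞 L) := by
  haveI := wcx_gal_field L H
  exact IsGaloisGroup.of_isFractionRing ↥H (𝓞 ↥(IntermediateField.fixedField H)) (𝓞 L)
    ↥(IntermediateField.fixedField H) L

/-- elements of `H` fix the integers of the fixed field -/
theorem wcx_smul_algebraMap {g : L ≃ₐ[ℚ] L} (hg : g ∈ H)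
    (x : 𝓞 ↥(IntermediateField.fixedField H)) :
    g • algebraMap (𝓞 ↥(IntermediateField.fixedField H)) (𝓞 L) x =
      algebraMap (𝓞 ↥(IntermediateField.fixedField H)) (𝓞 L) x := by
  haveI := wcx_gal_int L H
  haveI : SMulCommClass ↥H (𝓞 ↥(IntermediateField.fixedField H)) (𝓞 L) :=
    IsGaloisGroup.commutes
  exact smul_algebraMap (⟨g, hg⟩ : ↥H) x

theorem wcx_under_smul (P : Ideal (𝓞 L)) {g : L ≃ₐ[ℚ] L} (hg : g ∈ H) :
    (g • P).under (𝓞 ↥(IntermediateField.fixedField H)) =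
      P.under (𝓞 ↥(IntermediateField.fixedField H)) := by
  ext x
  rw [Ideal.under_def, Ideal.under_def, Ideal.mem_comap, Ideal.mem_comap]
  have hx := wcx_smul_algebraMap L H hg x
  constructor
  · intro h
    have h2 : g⁻¹ • algebraMap (𝓞 ↥(IntermediateField.fixedField H)) (𝓞 L) x ∈ P := by
      rwa [← Ideal.mem_pointwise_smul_iff_inv_smul_mem]
    rwa [← hx, inv_smul_smul] at h2
  · intro h
    rw [← hx]
    exact Ideal.smul_mem_pointwise_smul g _ P h

theorem wcx_exists_smul {P P' : Ideal (𝓞 L)} (hP : P.IsPrime) (hP' : P'.IsPrime)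
    (h : P.under (𝓞 ↥(IntermediateField.fixedField H)) =
      P'.under (𝓞 ↥(IntermediateField.fixedField H))) : ∃ g ∈ H, g • P = P' := by
  haveI := wcx_gal_int L H
  haveI : SMulCommClass ↥H (𝓞 ↥(IntermediateField.fixedField H)) (𝓞 L) :=
    IsGaloisGroup.commutes
  haveI : Algebra.IsInvariant (𝓞 ↥(IntermediateField.fixedField H)) (𝓞 L) ↥H :=
    IsGaloisGroup.isInvariant
  obtain ⟨g, hg⟩ := Algebra.IsInvariant.exists_smul_of_under_eq
    (𝓞 ↥(IntermediateField.fixedField H)) (𝓞 L) ↥H P P' h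
  exact ⟨(g : L ≃ₐ[ℚ] L), g.2, hg.symm⟩

/-- a finite domain all of whose elements satisfy `x ^ ℓ = x` has at most `ℓ` elements -/
theorem wcx_card_le {k : Type*} [CommRing k] [IsDomain k] [Finite k] {ℓ : ℕ} (hℓ : 1 < ℓ)
    (h : ∀ x : k, x ^ ℓ = x) : Nat.card k ≤ ℓ := by
  classical
  haveI := Fintype.ofFinite k
  have hdeg : (X ^ ℓ - X : k[X]).natDegree = ℓ := by
    have h1 : (X : k[X]).degree < (X ^ ℓ : k[X]).degree := by
      rw [degree_X_pow, degree_X]
      exact mod_cast hℓ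
    rw [natDegree_eq_of_degree_eq (degree_sub_eq_left_of_degree_lt h1), natDegree_X_pow]
  have hp : (X ^ ℓ - X : k[X]) ≠ 0 :=
    ne_zero_of_natDegree_gt (n := 1) (by rw [hdeg]; exact hℓ)
  have hsub : (Finset.univ : Finset k).val ⊆ (X ^ ℓ - X : k[X]).roots := by
    intro x _
    rw [mem_roots hp]
    simp [h x]
  have := card_le_degree_of_subset_roots hsub
  rw [hdeg, Finset.card_univ] at this
  rwa [Nat.card_eq_fintype_card]

theorem wcx_absNorm_under {ℓ : ℕ} (hℓ : ℓ.Prime) {P : Ideal (𝓞 L)} (hP : P.IsPrime)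
    (hℓP : (ℓ : 𝓞 L) ∈ P) {c : L ≃ₐ[ℚ] L} (hc : wc_IsFrob c P ℓ) (hcH : c ∈ H) :
    Ideal.absNorm (P.under (𝓞 ↥(IntermediateField.fixedField H))) = ℓ := by
  set M := ↥(IntermediateField.fixedField H) with hM
  set q := P.under (𝓞 M) with hq
  haveI hqp : q.IsPrime := Ideal.IsPrime.under (𝓞 M) P
  have hℓq : ((ℓ : ℕ) : 𝓞 M) ∈ q := by
    rw [hq, Ideal.under_def, Ideal.mem_comap, map_natCast]
    exact hℓP
  have hdvd : ℓ ∣ Ideal.absNorm q := wcb_b_dvd_absNorm hℓ hqp hℓq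
  have hq0 : q ≠ ⊥ := by
    intro h0
    rw [h0, Ideal.mem_bot] at hℓq
    exact hℓ.ne_zero (by exact_mod_cast hℓq)
  haveI : Finite (𝓞 M ⧸ q) := Ideal.finiteQuotientOfFreeOfNeBot q hq0
  have hle : Nat.card (𝓞 M ⧸ q) ≤ ℓ := by
    apply wcx_card_le hℓ.one_lt
    intro x
    obtain ⟨y, rfl⟩ := Ideal.Quotient.mk_surjective x
    rw [← map_pow, Ideal.Quotient.eq, hq, Ideal.under_def, Ideal.mem_comap, map_sub, map_pow]
    have h1 := hc (algebraMap (𝓞 M) (𝓞 L) y)
    rw [wcx_smul_algebraMap L H hcH y] at h1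
    have := P.neg_mem h1
    rwa [neg_sub] at this
  have hpos : 0 < Ideal.absNorm q := by
    rw [Nat.pos_iff_ne_zero, Ne, Ideal.absNorm_eq_zero_iff]
    exact hq0
  have hcard : Ideal.absNorm q = Nat.card (𝓞 M ⧸ q) := by
    rw [Ideal.absNorm_apply, Submodule.cardQuot_apply]
  rw [hcard] at hdvd hpos ⊢
  exact le_antisymm hle (Nat.le_of_dvd hpos hdvd)

theorem wcx_exists_over {ℓ : ℕ} (hℓ : ℓ.Prime) (I : Ideal (𝓞 ↥(IntermediateField.fixedField H)))
    (hI : Ideal.absNorm I = ℓ) :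
    ∃ (P : Ideal (𝓞 L)) (c : L ≃ₐ[ℚ] L), P.IsPrime ∧ (ℓ : 𝓞 L) ∈ P ∧
      P.under (𝓞 ↥(IntermediateField.fixedField H)) = I ∧ c ∈ H ∧ wc_IsFrob c P ℓ := by
  set M := ↥(IntermediateField.fixedField H) with hM
  haveI := wcx_gal_int L H
  haveI : SMulCommClass ↥H (𝓞 M) (𝓞 L) := IsGaloisGroup.commutes
  haveI : Algebra.IsInvariant (𝓞 M) (𝓞 L) ↥H := IsGaloisGroup.isInvariant
  haveI hIp : I.IsPrime := Ideal.isPrime_of_irreducible_absNorm (by
    rw [hI]; exact Nat.Prime.prime hℓ |>.irreducible)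
  obtain ⟨P, -, hPp, hPI⟩ := Ideal.exists_ideal_over_prime_of_isIntegral I (⊥ : Ideal (𝓞 L))
    (by simp [← RingHom.ker_eq_comap_bot])
  haveI := hPp
  have hℓI : ((ℓ : ℕ) : 𝓞 M) ∈ I := by
    have := Ideal.absNorm_mem I
    rwa [hI] at this
  have hℓP : ((ℓ : ℕ) : 𝓞 L) ∈ P := by
    have : algebraMap (𝓞 M) (𝓞 L) ((ℓ : ℕ) : 𝓞 M) ∈ P := by
      rw [← Ideal.mem_comap, hPI]
      exact hℓI
    rwa [map_natCast] at this
  have hP0 : P ≠ ⊥ := by
    intro h0
    rw [h0, Ideal.mem_bot] at hℓP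
    exact hℓ.ne_zero (by exact_mod_cast hℓP)
  haveI : Finite (𝓞 L ⧸ P) := Ideal.finiteQuotientOfFreeOfNeBot P hP0
  obtain ⟨σ, hσ⟩ := IsArithFrobAt.exists_of_isInvariant (𝓞 M) ↥H P
  refine ⟨P, (σ : L ≃ₐ[ℚ] L), hPp, hℓP, hPI, σ.2, ?_⟩
  intro x
  have h1 := hσ x
  have hcard : Nat.card (𝓞 M ⧸ P.under (𝓞 M)) = ℓ := by
    rw [Ideal.under_def, hPI, ← hI, Ideal.absNorm_apply, Submodule.cardQuot_apply]
  rw [hcard] at h1
  exact h1

end Fermat.Agent.WC
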