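/-
(WC+) weak Chebotarev with the Frobenius element GENERATING `⟨σ⟩`.

The proof of `wc_nf_of` (WC/NumberField.lean, helper19) produces a Frobenius element
`c ∈ ⟨σ⟩` with `orderOf c = orderOf σ` and exports only `σ ∈ ⟨c⟩`.  Consumers which have to control
the residue class of the prime `ℓ` (e.g. `ℓ ≡ 1 mod M` when `σ` fixes `ζ_M`) also need `c ∈ ⟨σ⟩`.
This file repeats the argument with the extra conjunct; no existing WC file is modified.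

* `wcz_nf`   : `L / ℚ` Galois number field, `σ ∈ Gal(L/ℚ)`, `S` finite: a prime `ℓ ∉ S` unramified
               in `L`, `P ∣ ℓ`, `φ` Frobenius at `P` with `σ ∈ ⟨φ⟩` and `φ ∈ ⟨σ⟩`;
* `wcz_main` : in the language of the prelude: `L ⊆ Q̄` finite normal, `σ ∈ Gal(Q̄/ℚ)`: a prime
               `ℓ ∉ S`, `A` over `ℓ`, `φ` Frobenius at `A`, and `k j` with `φ ^ k = σ` and
               `φ = σ ^ j` on `L`.
Owner: helper22.  Prefix `wcz_`.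
-/
import Fermat.Agent.WC.Final

set_option autoImplicit false
set_option linter.style.haveILetI false
set_option linter.unusedSectionVars false

open NumberField Filter Topology

namespace Fermat.Agent.WC

section nf

variable (L : Type*) [Field L] [NumberField L] [IsGalois ℚ L]

omit [IsGalois ℚ L] in
/-- Weak Chebotarev for `L / ℚ` from the inputs (A) and (B), with `φ ∈ ⟨σ⟩`. -/
theorem wcz_nf_of
    (hA : ∀ H : Subgroup (L ≃ₐ[ℚ] L),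
      wc_Mass (wc_P (fun p => (wc_a ↥(IntermediateField.fixedField H) p : ℝ))) 1)
    (hA' : ∀ H : Subgroup (L ≃ₐ[ℚ] L), ∃ B : ℝ, ∀ p : ℕ, p.Prime →
      (wc_a ↥(IntermediateField.fixedField H) p : ℝ) ≤ B)
    (hB1 : {ℓ : ℕ | ℓ.Prime ∧ ¬ wc_Unram L ℓ}.Finite)
    (hB2 : ∀ ℓ : ℕ, ℓ.Prime → ∀ c : L ≃ₐ[ℚ] L, wc_N L ℓ c ≤ Module.finrank ℚ L)
    (hB3 : ∀ ℓ : ℕ, ℓ.Prime → wc_Unram L ℓ → ∀ H : Subgroup (L ≃ₐ[ℚ] L),
      ∑ᶠ c : ↥H, orderOf (c : L ≃ₐ[ℚ] L) * wc_N L ℓ (c : L ≃ₐ[ℚ] L) =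
        Nat.card ↥H * wc_a ↥(IntermediateField.fixedField H) ℓ)
    (S : Finset ℕ) (σ : L ≃ₐ[ℚ] L) :
    ∃ (ℓ : ℕ) (P : Ideal (𝓞 L)) (φ : L ≃ₐ[ℚ] L), ℓ.Prime ∧ ℓ ∉ S ∧ wc_Unram L ℓ ∧ P.IsPrime ∧
      (ℓ : 𝓞 L) ∈ P ∧ wc_IsFrob φ P ℓ ∧ σ ∈ Subgroup.zpowers φ ∧ φ ∈ Subgroup.zpowers σ := by
  classical
  -- the good primes and the weights
  set good : ℕ → Prop := fun ℓ => ℓ.Prime ∧ ℓ ∉ S ∧ wc_Unram L ℓ with hgood
  set w : ℕ → (L ≃ₐ[ℚ] L) → ℝ := fun ℓ c =>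
    if good ℓ then ((orderOf c * wc_N L ℓ c : ℕ) : ℝ) else 0 with hw
  have hbad : {ℓ : ℕ | ℓ.Prime ∧ ¬ good ℓ}.Finite := by
    refine ((S.finite_toSet).union hB1).subset ?_
    rintro ℓ ⟨hℓ, hng⟩
    by_cases hS : ℓ ∈ S
    · exact Or.inl hS
    · refine Or.inr ⟨hℓ, fun hu => hng ⟨hℓ, hS, hu⟩⟩
  have hw0 : ∀ ℓ c, 0 ≤ w ℓ c := by
    intro ℓ c
    simp only [hw]
    split_ifs
    · exact Nat.cast_nonneg _
    · exact le_rfl
  -- on primes the weights are bounded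
  have hwB : ∃ B : ℝ, ∀ ℓ c, w ℓ c ≤ B := by
    refine ⟨((Nat.card (L ≃ₐ[ℚ] L) * Module.finrank ℚ L : ℕ) : ℝ), fun ℓ c => ?_⟩
    simp only [hw]
    split_ifs with hgd
    · exact Nat.cast_le.2 (Nat.mul_le_mul (orderOf_le_card) (hB2 ℓ hgd.1 c))
    · exact Nat.cast_nonneg _
  -- the masses
  have hmass : ∀ d : ℕ, d ∣ orderOf σ →
      wc_Mass (wc_P (fun ℓ =>
        ∑ᶠ c : {c : L ≃ₐ[ℚ] L // c ∈ Subgroup.zpowers σ ∧ orderOf c ∣ d}, w ℓ c)) d := by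
    intro d hd
    set H : Subgroup (L ≃ₐ[ℚ] L) := Subgroup.zpowers (σ ^ (orderOf σ / d)) with hH
    have hcard : Nat.card ↥H = d := wcn_card_zpowers_pow σ hd
    obtain ⟨B, hB⟩ := hA' H
    set a : ℕ → ℝ := fun p => (wc_a ↥(IntermediateField.fixedField H) p : ℝ) with ha
    set g : ℕ → ℝ := fun ℓ => if ℓ.Prime ∧ ¬ good ℓ then (d : ℝ) * a ℓ else 0 with hg
    have hgfin : {p : ℕ | g p ≠ 0}.Finite := by
      refine hbad.subset ?_
      intro ℓ hℓ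
      by_contra hcon
      apply hℓ
      have hcon' : ¬ (ℓ.Prime ∧ ¬ good ℓ) := hcon
      simp only [hg]
      rw [if_neg hcon']
    have hcoef : ∀ ℓ : ℕ, ℓ.Prime →
        (∑ᶠ c : {c : L ≃ₐ[ℚ] L // c ∈ Subgroup.zpowers σ ∧ orderOf c ∣ d}, w ℓ c) =
          (d : ℝ) * a ℓ - g ℓ := by
      intro ℓ hℓ
      rw [← wcn_finsum_subtype_congr (fun c => wcn_mem_zpowers_pow_iff σ hd c) (w ℓ)]
      by_cases hgd : good ℓ
      · have h1 : g ℓ = 0 := by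
          simp only [hg]
          rw [if_neg (fun h => h.2 hgd)]
        rw [h1, sub_zero]
        have h2 : ∀ c : {c : L ≃ₐ[ℚ] L // c ∈ Subgroup.zpowers (σ ^ (orderOf σ / d))},
            w ℓ c = ((orderOf (c : L ≃ₐ[ℚ] L) * wc_N L ℓ (c : L ≃ₐ[ℚ] L) : ℕ) : ℝ) := by
          intro c
          simp only [hw]
          rw [if_pos hgd]
        rw [finsum_congr h2]
        have h3 := hB3 ℓ hℓ hgd.2.2 H
        rw [hcard] at h3
        have h4 : ((∑ᶠ c : ↥H, orderOf (c : L ≃ₐ[ℚ] L) * wc_N L ℓ (c : L ≃ₐ[ℚ] L) : ℕ) : ℝ) =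
            (d : ℝ) * a ℓ := by
          rw [h3]
          push_cast
          rfl
        rw [← h4]
        exact (map_finsum (Nat.castAddMonoidHom ℝ) (Set.toFinite _)).symm
      · have h1 : g ℓ = (d : ℝ) * a ℓ := by
          simp only [hg]
          rw [if_pos ⟨hℓ, hgd⟩]
        rw [h1, sub_self]
        have h2 : ∀ c : {c : L ≃ₐ[ℚ] L // c ∈ Subgroup.zpowers (σ ^ (orderOf σ / d))},
            w ℓ c = 0 := by
          intro c
          simp only [hw]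
          rw [if_neg hgd]
        rw [finsum_congr h2, finsum_zero]
    have hda : ∀ p : ℕ, p.Prime → |(d : ℝ) * a p| ≤ (d : ℝ) * B := by
      intro p hp
      have h0 : (0 : ℝ) ≤ a p := Nat.cast_nonneg _
      rw [abs_of_nonneg (mul_nonneg (Nat.cast_nonneg _) h0)]
      exact mul_le_mul_of_nonneg_left (hB p hp) (Nat.cast_nonneg _)
    have hgB : ∀ p : ℕ, p.Prime → |g p| ≤ (d : ℝ) * B := by
      intro p hp
      simp only [hg]
      split_ifs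
      · exact hda p hp
      · rw [abs_zero]
        have h0 : (0 : ℝ) ≤ a p := Nat.cast_nonneg _
        exact mul_nonneg (Nat.cast_nonneg _) (h0.trans (hB p hp))
    have hm1 : wc_Mass (fun s => (d : ℝ) * wc_P a s - wc_P g s) ((d : ℝ) * 1 - 0) :=
      ((hA H).const_mul (d : ℝ)).sub (wc_Mass_P_of_finite hgfin)
    refine (hm1.congr' (fun s hs => ?_)).congr_coeff (by ring)
    rw [wc_P_congr hcoef s, wc_P_sub hda hgB hs, wc_P_const_mul]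
  obtain ⟨ℓ, c, hℓ, hcσ, hco, hne⟩ := wcm_exists σ w hw0 hwB hmass
  have hgd : good ℓ := by
    by_contra hcon
    apply hne
    simp only [hw]
    rw [if_neg hcon]
  have hN : wc_N L ℓ c ≠ 0 := by
    intro h0
    apply hne
    simp only [hw]
    rw [if_pos hgd, h0, mul_zero, Nat.cast_zero]
  have hne' : Nonempty {P : Ideal (𝓞 L) // P.IsPrime ∧ (ℓ : 𝓞 L) ∈ P ∧ wc_IsFrob c P ℓ} := by
    by_contra hcon
    rw [not_nonempty_iff] at hcon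
    exact hN Nat.card_of_isEmpty
  obtain ⟨P, hP1, hP2, hP3⟩ := hne'
  exact ⟨ℓ, P, c, hℓ, hgd.2.1, hgd.2.2, hP1, hP2, hP3, wcn_mem_zpowers_of_orderOf_eq hcσ hco, hcσ⟩

/-- **(WC+)** for an abstract Galois number field. -/
theorem wcz_nf (S : Finset ℕ) (σ : L ≃ₐ[ℚ] L) :
    ∃ (ℓ : ℕ) (P : Ideal (𝓞 L)) (φ : L ≃ₐ[ℚ] L), ℓ.Prime ∧ ℓ ∉ S ∧ wc_Unram L ℓ ∧ P.IsPrime ∧
      (ℓ : 𝓞 L) ∈ P ∧ wc_IsFrob φ P ℓ ∧ σ ∈ Subgroup.zpowers φ ∧ φ ∈ Subgroup.zpowers σ := by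
  refine wcz_nf_of L (fun H => wc_mass_a _) (fun H => ?_) (wcb_finite_ram L)
    (fun ℓ hℓ c => wcb_N_le L hℓ c) (fun _ hℓ hu H => wcb_count L hℓ hu H) S σ
  refine ⟨((2 ^ Module.finrank ℚ ↥(IntermediateField.fixedField H) : ℕ) : ℝ), fun p hp => ?_⟩
  have := wci_a_prime_pow_le ↥(IntermediateField.fixedField H) hp 1
  rw [pow_one] at this
  exact_mod_cast this

end nf

section qbar

open Fermat.Agent.S54 Fermat.Agent.S14.Reduction Fermat.Agent.S55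

attribute [local instance] Fermat.Agent.S54.galAction
attribute [local instance] Fermat.Agent.S14.Reduction.algebraIntQbar
attribute [local instance] wcf_qbarIsAlgebraic wcf_qbarIsAlgClosure

open scoped Pointwise

local notation "Qbar" => AlgebraicClosure ℚ

/-- (E+) with the number-field statement `wcz_nf` for `↥L` as an explicit hypothesis. -/
theorem wcz_main_of_nf (L : IntermediateField ℚ Qbar) [FiniteDimensional ℚ L] [Normal ℚ L]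
    [NumberField L] [IsGalois ℚ L]
    (S : Finset ℕ) (σ : Qbar ≃ₐ[ℚ] Qbar)
    (hnf : ∀ σ₀ : L ≃ₐ[ℚ] L, ∃ (ℓ : ℕ) (P : Ideal (𝓞 L)) (φ : L ≃ₐ[ℚ] L),
      ℓ.Prime ∧ ℓ ∉ S ∧ wc_Unram L ℓ ∧ P.IsPrime ∧ (ℓ : 𝓞 L) ∈ P ∧ wc_IsFrob φ P ℓ ∧
        σ₀ ∈ Subgroup.zpowers φ ∧ φ ∈ Subgroup.zpowers σ₀) :
    ∃ (ℓ : ℕ) (A : ValuationSubring Qbar) (φ : Qbar ≃ₐ[ℚ] Qbar) (k j : ℕ),
      ℓ.Prime ∧ ℓ ∉ S ∧ A.LiesOverPrime ℓ ∧ A.IsFrobeniusAt φ ℓ ∧ (∀ x ∈ L, (φ ^ k) x = σ x) ∧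
        ∀ x ∈ L, φ x = (σ ^ j) x := by
  classical
  obtain ⟨ℓ, P, φ₀, hℓ, hℓS, hu, hP, hℓP, hφ₀, hσ₀, hφσ⟩ :=
    hnf (AlgEquiv.restrictNormalHom L σ)
  haveI := hP
  have hP0 : P ≠ ⊥ := by
    intro h
    rw [h, Ideal.mem_bot] at hℓP
    exact (Nat.cast_ne_zero.2 hℓ.ne_zero : ((ℓ : ℕ) : 𝓞 L) ≠ 0) hℓP
  haveI hPmax : P.IsMaximal := Ideal.IsPrime.isMaximal hP hP0
  obtain ⟨Q, hQmax, hQP⟩ := Ideal.exists_maximal_ideal_liesOver_of_isIntegral (S := intQbar) P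
  haveI := hQmax
  haveI := hQP
  haveI hQprime : Q.IsPrime := hQmax.isPrime
  have hmemQ : ∀ x : 𝓞 L, toIntQbar L x ∈ Q ↔ x ∈ P := by
    intro x
    rw [hQP.over]
    rfl
  haveI hspanmax : (Ideal.span {(ℓ : ℤ)}).IsMaximal :=
    PrincipalIdealRing.isMaximal_of_irreducible (Nat.prime_iff_prime_int.mp hℓ).irreducible
  haveI hQℓ : Q.LiesOver (Ideal.span {(ℓ : ℤ)}) := by
    constructor
    refine hspanmax.eq_of_le (Ideal.IsPrime.ne_top (Ideal.IsPrime.under ℤ Q)) ?_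
    rw [Ideal.span_singleton_le_iff_mem, Ideal.under_def, Ideal.mem_comap]
    have h1 : toIntQbar L ((ℓ : ℕ) : 𝓞 L) ∈ Q := (hmemQ _).mpr hℓP
    have h2 : algebraMap ℤ intQbar (ℓ : ℤ) = toIntQbar L ((ℓ : ℕ) : 𝓞 L) := by
      rw [map_natCast]
      simp
    rw [h2]
    exact h1
  obtain ⟨φ, hφQ, hφ⟩ := exists_frob_intQbar hℓ Q
  -- the restriction of `φ` is a Frobenius element at `P`
  have hφ₁ : wc_IsFrob (AlgEquiv.restrictNormalHom L φ) P ℓ := by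
    intro x
    rw [← hmemQ, map_sub, map_pow, ← pl_smul_toIntQbar]
    exact hφ _
  have heq : AlgEquiv.restrictNormalHom L φ = φ₀ :=
    wcf_frob_unique L hℓ.ne_zero hu hℓP hφ₀ hφ₁
  obtain ⟨k, hk⟩ := wcf_exists_pow_of_mem_zpowers hσ₀
  obtain ⟨j, hj⟩ := wcf_exists_pow_of_mem_zpowers hφσ
  refine ⟨ℓ, valSubring hℓ Q, φ, k, j, hℓ, hℓS, liesOverPrime_valSubring hℓ Q,
    isFrobeniusAt_valSubring hℓ Q hφQ hφ, fun x hx => ?_, fun x hx => ?_⟩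
  · have h1 : AlgEquiv.restrictNormalHom L (φ ^ k) = AlgEquiv.restrictNormalHom L σ := by
      rw [map_pow, heq, hk]
    have h2 := coe_restrictNormalHom L (φ ^ k) ⟨x, hx⟩
    have h3 := coe_restrictNormalHom L σ ⟨x, hx⟩
    rw [← h2, ← h3, h1]
  · have h1 : AlgEquiv.restrictNormalHom L φ = AlgEquiv.restrictNormalHom L (σ ^ j) := by
      rw [map_pow, heq, hj]
    have h2 := coe_restrictNormalHom L φ ⟨x, hx⟩
    have h3 := coe_restrictNormalHom L (σ ^ j) ⟨x, hx⟩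
    rw [← h2, ← h3, h1]

/-- **(WC+)** in the language of the prelude: every element `σ` of `Gal(Q̄/ℚ)` agrees on every
finite normal `L` with a power of a Frobenius element `φ` at a prime outside `S`, and `φ` agrees
on `L` with a power of `σ`. -/
theorem wcz_main (L : IntermediateField ℚ Qbar) [FiniteDimensional ℚ L] [Normal ℚ L]
    (S : Finset ℕ) (σ : Qbar ≃ₐ[ℚ] Qbar) :
    ∃ (ℓ : ℕ) (A : ValuationSubring Qbar) (φ : Qbar ≃ₐ[ℚ] Qbar) (k j : ℕ),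
      ℓ.Prime ∧ ℓ ∉ S ∧ A.LiesOverPrime ℓ ∧ A.IsFrobeniusAt φ ℓ ∧ (∀ x ∈ L, (φ ^ k) x = σ x) ∧
        ∀ x ∈ L, φ x = (σ ^ j) x := by
  haveI : NumberField L := ⟨⟩
  haveI : IsGalois ℚ L := ⟨⟩
  exact wcz_main_of_nf L S σ fun σ₀ => wcz_nf L S σ₀

end qbar

end Fermat.Agent.WC
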