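import Mathlib
import Fermat.Agent.WC.Defs

/-!
# (WC) leaf (A2): `log` of an Euler product against its prime Dirichlet series

For a nonnegative multiplicative `a : ℕ → ℝ` with `a 1 = 1`, `a (p ^ e) ≤ (e + 1) ^ d` and
summable Dirichlet series, `log (∑ a n n^{-s}) = ∑_p a p p^{-s} + O(1)` uniformly in `s > 1`.
Prefix `wce_`.
-/

set_option autoImplicit false

open Filter Topology Real

namespace Fermat.Agent.WC

/-! ### Elementary estimates -/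

theorem wce_summable_K (d : ℕ) : Summable fun e : ℕ => ((e : ℝ) + 3) ^ d * (1 / 2 : ℝ) ^ e := by
  have h := summable_pow_mul_geometric_of_norm_lt_one d
    (show ‖(1 / 2 : ℝ)‖ < 1 by rw [Real.norm_eq_abs, abs_of_pos] <;> norm_num)
  have h3 := (summable_nat_add_iff 3).mpr h
  have h8 := h3.mul_left 8
  refine h8.congr fun e => ?_
  push_cast
  rw [pow_add]
  ring

/-- `K_d = ∑ (e + 3) ^ d 2^{-e}`. -/
noncomputable def wce_K (d : ℕ) : ℝ := ∑' e : ℕ, ((e : ℝ) + 3) ^ d * (1 / 2 : ℝ) ^ e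

theorem wce_K_nonneg (d : ℕ) : 0 ≤ wce_K d :=
  tsum_nonneg fun e => by positivity

theorem wce_sub_sq_le_log {x : ℝ} (hx : 0 ≤ x) : x - x ^ 2 / 2 ≤ Real.log (1 + x) := by
  refine le_trans ?_ (Real.le_log_one_add_of_nonneg hx)
  rw [le_div_iff₀ (by positivity)]
  nlinarith [pow_nonneg hx 3]

theorem wce_rpow_pow (p k : ℕ) (s : ℝ) :
    ((p ^ k : ℕ) : ℝ) ^ (-s) = ((p : ℝ) ^ (-s)) ^ k := by
  push_cast
  rw [← Real.rpow_natCast, ← Real.rpow_mul (Nat.cast_nonneg p), mul_comm,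
    Real.rpow_mul (Nat.cast_nonneg p), Real.rpow_natCast]

theorem wce_y_le_inv {p : ℕ} (hp : p.Prime) {s : ℝ} (hs : 1 < s) :
    (p : ℝ) ^ (-s) ≤ 1 / (p : ℝ) := by
  have hp1 : (1 : ℝ) ≤ p := by exact_mod_cast hp.one_lt.le
  rw [one_div, ← Real.rpow_neg_one]
  exact Real.rpow_le_rpow_of_exponent_le hp1 (by linarith)

theorem wce_inv_le_half {p : ℕ} (hp : p.Prime) : 1 / (p : ℝ) ≤ 1 / 2 := by
  have hp2 : (2 : ℝ) ≤ p := by exact_mod_cast hp.two_le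
  exact one_div_le_one_div_of_le (by norm_num) hp2

/-! ### One Euler factor -/

section factor

variable {a : ℕ → ℝ} {d : ℕ}

/-- The per-prime estimate, in abstract form: `F = 1 + x + R` with `0 ≤ R ≤ K u²`,
`0 ≤ x ≤ 2^d u`. -/
theorem wce_abs_log_sub_le {F x R K u : ℝ} {d : ℕ} (hF : F = 1 + x + R) (hx0 : 0 ≤ x)
    (hR0 : 0 ≤ R) (hR : R ≤ K * u ^ 2) (hx : x ≤ 2 ^ d * u) :
    |Real.log F - x| ≤ (K + 4 ^ d) * u ^ 2 := by
  have hFpos : 0 < F := by rw [hF]; positivity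
  have h1 : Real.log F ≤ x + R := by
    have := Real.log_le_sub_one_of_pos hFpos
    rw [hF] at this ⊢
    linarith
  have h2 : x - x ^ 2 / 2 ≤ Real.log F := by
    refine (wce_sub_sq_le_log hx0).trans ?_
    exact Real.log_le_log (by positivity) (by rw [hF]; linarith)
  have h3 : x ^ 2 ≤ 4 ^ d * u ^ 2 := by
    have : x ^ 2 ≤ (2 ^ d * u) ^ 2 := pow_le_pow_left₀ hx0 hx 2
    calc x ^ 2 ≤ (2 ^ d * u) ^ 2 := this
      _ = 4 ^ d * u ^ 2 := by
        rw [mul_pow, ← pow_mul, mul_comm d 2, pow_mul]; norm_num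
  have h4 : 0 ≤ (4 : ℝ) ^ d * u ^ 2 := by positivity
  rw [abs_le]
  constructor <;> nlinarith

variable (hnn : ∀ n, 0 ≤ a n) (hpp : ∀ p e : ℕ, p.Prime → a (p ^ e) ≤ ((e : ℝ) + 1) ^ d)

include hpp in
theorem wce_tail_term_le {p : ℕ} (hp : p.Prime) {s : ℝ} (hs : 1 < s) (e : ℕ) :
    a (p ^ (e + 2)) * ((p ^ (e + 2) : ℕ) : ℝ) ^ (-s) ≤
      (((e : ℝ) + 3) ^ d * (1 / 2 : ℝ) ^ e) * (1 / (p : ℝ)) ^ 2 := by
  have hy0 : 0 ≤ (p : ℝ) ^ (-s) := Real.rpow_nonneg (Nat.cast_nonneg p) _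
  have hy1 := wce_y_le_inv hp hs
  have hy2 := hy1.trans (wce_inv_le_half hp)
  have ha : a (p ^ (e + 2)) ≤ ((e : ℝ) + 3) ^ d := by
    have := hpp p (e + 2) hp
    push_cast at this
    convert this using 2
    ring
  rw [wce_rpow_pow, pow_add ((p : ℝ) ^ (-s))]
  have h1 : ((p : ℝ) ^ (-s)) ^ e ≤ (1 / 2 : ℝ) ^ e := pow_le_pow_left₀ hy0 hy2 e
  have h2 : ((p : ℝ) ^ (-s)) ^ 2 ≤ (1 / (p : ℝ)) ^ 2 := pow_le_pow_left₀ hy0 hy1 2
  calc a (p ^ (e + 2)) * (((p : ℝ) ^ (-s)) ^ e * ((p : ℝ) ^ (-s)) ^ 2)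
      ≤ ((e : ℝ) + 3) ^ d * ((1 / 2 : ℝ) ^ e * (1 / (p : ℝ)) ^ 2) := by
        apply mul_le_mul ha (mul_le_mul h1 h2 (by positivity) (by positivity))
          (by positivity) (by positivity)
    _ = _ := by ring

include hnn in
theorem wce_term_nonneg (n : ℕ) (s : ℝ) : 0 ≤ a n * (n : ℝ) ^ (-s) :=
  mul_nonneg (hnn n) (Real.rpow_nonneg (Nat.cast_nonneg n) _)

include hnn hpp in
theorem wce_tail_summable {p : ℕ} (hp : p.Prime) {s : ℝ} (hs : 1 < s) :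
    Summable fun e : ℕ => a (p ^ (e + 2)) * ((p ^ (e + 2) : ℕ) : ℝ) ^ (-s) := by
  refine Summable.of_nonneg_of_le (fun e => wce_term_nonneg hnn _ _)
    (fun e => wce_tail_term_le hpp hp hs e) ?_
  exact (wce_summable_K d).mul_right _

include hnn hpp in
theorem wce_tail_le {p : ℕ} (hp : p.Prime) {s : ℝ} (hs : 1 < s) :
    ∑' e : ℕ, a (p ^ (e + 2)) * ((p ^ (e + 2) : ℕ) : ℝ) ^ (-s) ≤
      wce_K d * (1 / (p : ℝ)) ^ 2 := by
  rw [wce_K, ← tsum_mul_right]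
  exact (wce_tail_summable hnn hpp hp hs).tsum_le_tsum (wce_tail_term_le hpp hp hs)
    ((wce_summable_K d).mul_right _)

include hnn hpp in
theorem wce_factor_summable {p : ℕ} (hp : p.Prime) {s : ℝ} (hs : 1 < s) :
    Summable fun e : ℕ => a (p ^ e) * ((p ^ e : ℕ) : ℝ) ^ (-s) :=
  (summable_nat_add_iff (f := fun e : ℕ => a (p ^ e) * ((p ^ e : ℕ) : ℝ) ^ (-s)) 2).mp
    (wce_tail_summable hnn hpp hp hs)

include hnn hpp in
theorem wce_factor_eq (ha1 : a 1 = 1) {p : ℕ} (hp : p.Prime) {s : ℝ} (hs : 1 < s) :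
    ∑' e : ℕ, a (p ^ e) * ((p ^ e : ℕ) : ℝ) ^ (-s) =
      1 + a p * (p : ℝ) ^ (-s) +
        ∑' e : ℕ, a (p ^ (e + 2)) * ((p ^ (e + 2) : ℕ) : ℝ) ^ (-s) := by
  rw [← (wce_factor_summable hnn hpp hp hs).sum_add_tsum_nat_add 2]
  simp [Finset.sum_range_succ, ha1]

include hnn hpp in
theorem wce_factor_log (ha1 : a 1 = 1) {p : ℕ} (hp : p.Prime) {s : ℝ} (hs : 1 < s) :
    |Real.log (∑' e : ℕ, a (p ^ e) * ((p ^ e : ℕ) : ℝ) ^ (-s)) - a p * (p : ℝ) ^ (-s)| ≤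
      (wce_K d + 4 ^ d) * (1 / (p : ℝ)) ^ 2 := by
  refine wce_abs_log_sub_le (wce_factor_eq hnn hpp ha1 hp hs) (wce_term_nonneg hnn p s)
    (tsum_nonneg fun e => wce_term_nonneg hnn _ _) (wce_tail_le hnn hpp hp hs) ?_
  have h1 : a p ≤ 2 ^ d := by
    have := hpp p 1 hp
    rw [pow_one] at this
    refine this.trans (le_of_eq ?_)
    norm_num
  exact mul_le_mul h1 (wce_y_le_inv hp hs) (Real.rpow_nonneg (Nat.cast_nonneg p) _)
    (by positivity)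

include hnn hpp in
theorem wce_factor_pos (ha1 : a 1 = 1) {p : ℕ} (hp : p.Prime) {s : ℝ} (hs : 1 < s) :
    0 < ∑' e : ℕ, a (p ^ e) * ((p ^ e : ℕ) : ℝ) ^ (-s) := by
  rw [wce_factor_eq hnn hpp ha1 hp hs]
  have h1 := wce_term_nonneg hnn p s
  have h2 : 0 ≤ ∑' e : ℕ, a (p ^ (e + 2)) * ((p ^ (e + 2) : ℕ) : ℝ) ^ (-s) :=
    tsum_nonneg fun e => wce_term_nonneg hnn _ _
  linarith

end factor

/-! ### The Euler product -/

theorem wce_summable_primes_inv_sq :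
    Summable fun p : Nat.Primes => (1 / ((p : ℕ) : ℝ)) ^ 2 := by
  have h := (Nat.Primes.summable_rpow (r := -2)).mpr (by norm_num)
  refine h.congr fun p => ?_
  rw [one_div, inv_pow, Real.rpow_neg (Nat.cast_nonneg _), Real.rpow_two]

/-- Leaf (A2): `log (∑ a n n^{-s}) = ∑_p a p p^{-s} + O(1)` uniformly in `s > 1`. -/
theorem wce_log_euler (a : ℕ → ℝ) (d : ℕ) (ha1 : a 1 = 1)
    (hmul : ∀ m n, Nat.Coprime m n → a (m * n) = a m * a n) (hnn : ∀ n, 0 ≤ a n)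
    (hpp : ∀ p e : ℕ, p.Prime → a (p ^ e) ≤ ((e : ℝ) + 1) ^ d)
    (hsum : ∀ s : ℝ, 1 < s → Summable fun n : ℕ => a n * (n : ℝ) ^ (-s)) :
    ∃ C : ℝ, ∀ s : ℝ, 1 < s → s ≤ 2 →
      |Real.log (∑' n : ℕ, a n * (n : ℝ) ^ (-s)) - wc_P a s| ≤ C := by
  refine ⟨(wce_K d + 4 ^ d) * ∑' p : Nat.Primes, (1 / ((p : ℕ) : ℝ)) ^ 2, fun s hs _ => ?_⟩
  set f : ℕ → ℝ := fun n => a n * (n : ℝ) ^ (-s) with hf
  have hs0 : -s ≠ 0 := by linarith
  have hf0 : f 0 = 0 := by simp [hf, Real.zero_rpow hs0]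
  have hf1 : f 1 = 1 := by simp [hf, ha1]
  have hfmul : ∀ {m n : ℕ}, Nat.Coprime m n → f (m * n) = f m * f n := by
    intro m n hmn
    simp only [hf]
    rw [hmul m n hmn, Nat.cast_mul, Real.mul_rpow (Nat.cast_nonneg m) (Nat.cast_nonneg n)]
    ring
  have hfnn : ∀ n, 0 ≤ f n := fun n => wce_term_nonneg hnn n s
  have hfsum : Summable f := hsum s hs
  have hfnorm : Summable (‖f ·‖) := by
    refine hfsum.congr fun n => ?_
    rw [Real.norm_eq_abs, abs_of_nonneg (hfnn n)]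
  have hprod := EulerProduct.eulerProduct_hasProd hf1 hfmul hfnorm hf0
  -- the Euler factors
  set F : Nat.Primes → ℝ := fun p => ∑' e : ℕ, f ((p : ℕ) ^ e) with hF
  have hFpos : ∀ p : Nat.Primes, 0 < F p := fun p => wce_factor_pos hnn hpp ha1 p.2 hs
  have hbound : ∀ p : Nat.Primes,
      |Real.log (F p) - f p| ≤ (wce_K d + 4 ^ d) * (1 / ((p : ℕ) : ℝ)) ^ 2 :=
    fun p => wce_factor_log hnn hpp ha1 p.2 hs
  have hsB : Summable fun p : Nat.Primes => (wce_K d + 4 ^ d) * (1 / ((p : ℕ) : ℝ)) ^ 2 :=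
    wce_summable_primes_inv_sq.mul_left _
  have hsabs : Summable fun p : Nat.Primes => |Real.log (F p) - f p| :=
    Summable.of_nonneg_of_le (fun p => abs_nonneg _) hbound hsB
  have hsdiff : Summable fun p : Nat.Primes => Real.log (F p) - f p := hsabs.of_abs
  have hsfp : Summable fun p : Nat.Primes => f p :=
    hfsum.comp_injective Nat.Primes.coe_nat_injective
  have hslog : Summable fun p : Nat.Primes => Real.log (F p) := by
    refine (hsdiff.add hsfp).congr fun p => ?_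
    ring
  have hlogZ : Real.log (∑' n : ℕ, f n) = ∑' p : Nat.Primes, Real.log (F p) := by
    rw [← hprod.tprod_eq, ← Real.rexp_tsum_eq_tprod hFpos hslog, Real.log_exp]
  have hP : wc_P a s = ∑' p : Nat.Primes, f p := rfl
  rw [hlogZ, hP, ← hslog.tsum_sub hsfp]
  calc |∑' p : Nat.Primes, (Real.log (F p) - f p)|
      ≤ ∑' p : Nat.Primes, |Real.log (F p) - f p| := by
        have := norm_tsum_le_tsum_norm (f := fun p : Nat.Primes => Real.log (F p) - f p)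
          (by simpa [Real.norm_eq_abs] using hsabs)
        simpa [Real.norm_eq_abs] using this
    _ ≤ ∑' p : Nat.Primes, (wce_K d + 4 ^ d) * (1 / ((p : ℕ) : ℝ)) ^ 2 :=
        hsabs.tsum_le_tsum hbound hsB
    _ = _ := tsum_mul_left

end Fermat.Agent.WC
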