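/-
(WC) leaf (B-γ): the orbit counting lemma behind `wcb_count` (pure finite group actions).
`G` acts on `X`; every point `x` has a cyclic stabilizer generated by `frob x`; `H ≤ G`;
`π` identifies the `H`-orbits on `X_H := {x | frob x ∈ H}` with `Y`.  Then
`∑_{c ∈ H} orderOf c * #{x | frob x = c} = #H * #Y`.
Owner: helper19.  Prefix `wcg_`.  Mathlib only.
-/
import Mathlib

set_option autoImplicit false

namespace Fermat.Agent.WC

theorem wcg_count {G X Y : Type*} [Group G] [Finite G] [MulAction G X] [Finite X] [Finite Y]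
    (H : Subgroup G) (frob : X → G)
    (hstab : ∀ x : X, MulAction.stabilizer G x = Subgroup.zpowers (frob x))
    (π : {x : X // frob x ∈ H} → Y) (hsurj : Function.Surjective π)
    (hfib : ∀ x x' : {x : X // frob x ∈ H}, π x = π x' ↔ ∃ h ∈ H, h • (x : X) = (x' : X)) :
    ∑ᶠ c : ↥H, orderOf (c : G) * Nat.card {x : X // frob x = (c : G)} =
      Nat.card ↥H * Nat.card Y := by
  classical
  have : Fintype G := Fintype.ofFinite G
  have : Fintype X := Fintype.ofFinite X
  have : Fintype Y := Fintype.ofFinite Y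
  -- stabilizers of points of `X_H` lie inside `H`
  have hstabH : ∀ x : X, frob x ∈ H → ∀ k : G, k • x = x → k ∈ H := by
    intro x hx k hk
    have h1 : k ∈ MulAction.stabilizer G x := hk
    rw [hstab x] at h1
    exact (Subgroup.zpowers_le.2 hx) h1
  have hfrob_mem : ∀ x : X, frob x • x = x := fun x => by
    have : frob x ∈ MulAction.stabilizer G x := by
      rw [hstab x]; exact Subgroup.mem_zpowers _
    exact this
  -- `X_H` is `H`-stable
  have hXH : ∀ x : X, frob x ∈ H → ∀ h ∈ H, frob (h • x) ∈ H := by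
    intro x hx h hh
    have h2 : (h⁻¹ * frob (h • x) * h) • x = x := by
      rw [mul_smul, mul_smul, hfrob_mem (h • x), inv_smul_smul]
    have h3 := hstabH x hx _ h2
    have h4 : frob (h • x) = h * (h⁻¹ * frob (h • x) * h) * h⁻¹ := by group
    rw [h4]
    exact H.mul_mem (H.mul_mem hh h3) (H.inv_mem hh)
  -- the left hand side as a sum over `X_H`
  have hL : ∑ᶠ c : ↥H, orderOf (c : G) * Nat.card {x : X // frob x = (c : G)} =
      ∑ x : {x : X // frob x ∈ H}, orderOf (frob x.1) := by
    rw [finsum_eq_sum_of_fintype]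
    rw [← Fintype.sum_fiberwise (fun x : {x : X // frob x ∈ H} => (⟨frob x.1, x.2⟩ : ↥H))
      (fun x => orderOf (frob x.1))]
    refine Finset.sum_congr rfl fun c _ => ?_
    have h1 : ∀ a : {a : {x : X // frob x ∈ H} // (⟨frob a.1, a.2⟩ : ↥H) = c},
        orderOf (frob a.1.1) = orderOf (c : G) := by
      intro a
      exact congrArg (fun z : ↥H => orderOf (z : G)) a.2
    have h2 : Fintype.card {a : {x : X // frob x ∈ H} // (⟨frob a.1, a.2⟩ : ↥H) = c} =
        Nat.card {x : X // frob x = (c : G)} := by
      rw [← Nat.card_eq_fintype_card]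
      refine Nat.card_congr ?_
      exact
        { toFun := fun a => ⟨a.1.1, congrArg Subtype.val a.2⟩
          invFun := fun x => ⟨⟨x.1, by rw [x.2]; exact c.2⟩, Subtype.ext x.2⟩
          left_inv := fun a => rfl
          right_inv := fun x => rfl }
    rw [Finset.sum_congr rfl (fun a _ => h1 a), Finset.sum_const, Finset.card_univ, smul_eq_mul,
      mul_comm, h2]
  rw [hL, ← Fintype.sum_fiberwise π (fun x => orderOf (frob x.1))]
  -- each fibre contributes `card H`
  have hfibre : ∀ y : Y, ∑ x : {x : {x : X // frob x ∈ H} // π x = y}, orderOf (frob x.1.1) =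
      Nat.card ↥H := by
    intro y
    obtain ⟨x₀, hx₀⟩ := hsurj y
    -- the orbit map `H → fibre`
    let f : ↥H → {x : {x : X // frob x ∈ H} // π x = y} := fun h =>
      ⟨⟨(h : G) • x₀.1, hXH x₀.1 x₀.2 h h.2⟩, by
        rw [← hx₀]
        exact ((hfib x₀ ⟨(h : G) • x₀.1, hXH x₀.1 x₀.2 h h.2⟩).2 ⟨h, h.2, rfl⟩).symm⟩
    have h1 : Nat.card ↥H = ∑ x : {x : {x : X // frob x ∈ H} // π x = y},
        Nat.card {h : ↥H // f h = x} := by
      rw [← Nat.card_sigma]
      exact Nat.card_congr (Equiv.sigmaFiberEquiv f).symm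
    rw [h1]
    refine Finset.sum_congr rfl fun x _ => ?_
    -- the fibre of the orbit map over `x` is a coset of the stabilizer of `x`
    have hx : π x₀ = π x.1 := by rw [hx₀, x.2]
    obtain ⟨h₀, hh₀, hh₀x⟩ := (hfib x₀ x.1).1 hx
    have h2 : Nat.card {h : ↥H // f h = x} = Nat.card ↥(MulAction.stabilizer G x.1.1) := by
      refine Nat.card_congr ?_
      exact
        { toFun := fun h => ⟨(h.1 : G) * h₀⁻¹, by
            rw [MulAction.mem_stabilizer_iff, mul_smul]
            have h3 : (h.1 : G) • x₀.1 = x.1.1 := congrArg (fun z => z.1.1) h.2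
            rw [← hh₀x, inv_smul_smul, h3, hh₀x]⟩
          invFun := fun k => ⟨⟨(k : G) * h₀, H.mul_mem (hstabH x.1.1 x.1.2 k k.2) hh₀⟩, by
            refine Subtype.ext (Subtype.ext ?_)
            show ((k : G) * h₀) • x₀.1 = x.1.1
            rw [mul_smul, hh₀x]
            exact k.2⟩
          left_inv := fun h => by
            refine Subtype.ext (Subtype.ext ?_)
            show (h.1 : G) * h₀⁻¹ * h₀ = h.1
            group
          right_inv := fun k => by
            refine Subtype.ext ?_
            show (k : G) * h₀ * h₀⁻¹ = k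
            group }
    rw [h2, hstab, Nat.card_zpowers]
  rw [Finset.sum_congr rfl (fun y _ => hfibre y), Finset.sum_const, Finset.card_univ,
    smul_eq_mul, mul_comm, Nat.card_eq_fintype_card (α := Y)]

end Fermat.Agent.WC
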